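import Fermat.Agent.LT.Torus.Theta

/-!
# The torus average of a theta function: convergence and bounds
-/

set_option autoImplicit false
set_option linter.unusedSectionVars false

noncomputable section

open MeasureTheory ENNReal MulAction NumberField Module
open scoped Real

namespace Fermat.Agent.LT.Torus

open Fermat.Agent.LT.WeilInf Fermat.Agent.LT.Poisson

variable {F E : Type*} [Field F] [NumberField F] [Field E] [NumberField E] [Algebra F E]
  [IsTotallyComplex F]

namespace Quad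

variable (Q : Quad F E)

theorem isRealModel (h2 : finrank F E = 2) :
    IsRealModel (twForm (((Q.c : E ≃+* E)) : E →+* E)) Q.j (swapB (InfinitePlace F)) := by
  refine IsPairCM.isRealModel (fun x => Q.c_c x) ?_
  exact isPairCM h2 Q.c_ne fun w x => DFunLike.congr_fun (Q.φ_comp w) x

theorem one_le_norm_j (h2 : finrank F E = 2) {y : 𝓞 E} (hy : y ≠ 0) : 1 ≤ ‖Q.j (y : E)‖ := by
  by_contra hcon
  push Not at hcon
  have h3 : ∀ v : InfinitePlace E, v (y : E) < 1 := by
    intro v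
    obtain ⟨s, rfl⟩ := Q.P_surjective h2 v
    refine lt_of_le_of_lt ?_ hcon
    rcases s with w | w
    · exact (norm_fst_le (Q.j (y : E) w)).trans (norm_le_pi_norm (Q.j (y : E)) w)
    · exact (norm_snd_le (Q.j (y : E) w)).trans (norm_le_pi_norm (Q.j (y : E)) w)
  have v : InfinitePlace E := Classical.arbitrary _
  exact absurd (InfinitePlace.one_le_of_lt_one hy fun z _ => h3 z) (not_le.mpr (h3 v))

/-- sums of Gaussians over subsets of a lattice which do not contain zero -/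
theorem exists_sum_bound (h2 : finrank F E = 2) {n : ℕ} (hn : n ≠ 0) {m : ℕ}
    (hm : finrank ℚ E < 2 * m) :
    ∃ C : ℝ, 0 ≤ C ∧ ∀ a : ℝ, 0 < a → ∀ S : Set E, (∀ x ∈ S, IsIntegral ℤ ((n : E) * x)) →
      (0 : E) ∉ S → ∑' x : S, ENNReal.ofReal (Real.exp (-(a * ‖Q.j (x : E)‖ ^ 2))) ≤
        ENNReal.ofReal (C / a ^ m) := by
  have hmr : (finrank ℚ E : ℝ) < (2 * m : ℕ) := by exact_mod_cast hm
  let g : (InfinitePlace F → ℂ × ℂ) → ℂ := fun v => (((1 + ‖v‖) ^ (-((2 * m : ℕ) : ℝ)) : ℝ) : ℂ)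
  have hsum := (Q.isRealModel h2).summable_of_decay (b := NumberField.integralBasis E)
    (Λ := ringLat E) rfl (g := g) (C := 1) hmr (fun v => by
      simp only [g]
      rw [Complex.norm_real, one_mul, Real.norm_of_nonneg (by positivity)]) 0
  have hsum' : Summable fun x : ringLat E => (1 + ‖Q.j (x : E)‖) ^ (-((2 * m : ℕ) : ℝ)) := by
    have := hsum.norm
    refine this.congr fun x => ?_
    simp only [g, zero_add]
    rw [Complex.norm_real, Real.norm_of_nonneg (by positivity)]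
  set K : ℝ := m.factorial * (n : ℝ) ^ (2 * m) * 4 ^ m with hK
  have hK0 : 0 ≤ K := by positivity
  refine ⟨K * ∑' x : ringLat E, (1 + ‖Q.j (x : E)‖) ^ (-((2 * m : ℕ) : ℝ)), ?_, ?_⟩
  · exact mul_nonneg hK0 (tsum_nonneg fun x => by positivity)
  intro a ha S hS h0
  -- the injection
  let f : S → ringLat E := fun x => ⟨(n : E) * x, mem_ringLat.mpr ⟨⟨_, hS x x.2⟩, rfl⟩⟩
  have hn' : (n : E) ≠ 0 := Nat.cast_ne_zero.mpr hn
  have hf : Function.Injective f := fun x y hxy =>
    Subtype.ext (mul_left_cancel₀ hn' (congrArg Subtype.val hxy))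
  have hn0 : (0 : ℝ) < n := Nat.cast_pos.mpr (Nat.pos_of_ne_zero hn)
  have hle : ∀ x : S, ENNReal.ofReal (Real.exp (-(a * ‖Q.j (x : E)‖ ^ 2))) ≤
      ENNReal.ofReal (K / a ^ m * (1 + ‖Q.j ((f x : ringLat E) : E)‖) ^ (-((2 * m : ℕ) : ℝ))) := by
    intro x
    refine ENNReal.ofReal_le_ofReal ?_
    have hx0 : (x : E) ≠ 0 := fun h => h0 (h ▸ x.2)
    have hr1 : 1 ≤ ‖Q.j ((n : E) * x)‖ := by
      refine Q.one_le_norm_j h2 (y := ⟨_, hS x x.2⟩) ?_
      intro h
      exact mul_ne_zero hn' hx0 (congrArg Subtype.val h)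
    have hfx : ((f x : ringLat E) : E) = (n : E) * x := rfl
    rw [hfx]
    have hjn : Q.j ((n : E) * x) = (n : ℝ) • Q.j (x : E) := by
      rw [← nsmul_eq_mul, map_nsmul, ← Nat.cast_smul_eq_nsmul ℝ]
    set r := ‖Q.j ((n : E) * x)‖ with hr
    have hr2 : r = n * ‖Q.j (x : E)‖ := by
      rw [hr, hjn, norm_smul, Real.norm_of_nonneg hn0.le]
    have hr3 : ‖Q.j (x : E)‖ = r / n := by
      rw [hr2]; field_simp
    rw [hr3]
    have hr0 : 0 < r := one_pos.trans_le hr1
    set b := a * (r / n) ^ 2 with hb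
    have hb0 : 0 < b := by positivity
    have h5 := Real.pow_div_factorial_le_exp b hb0.le m
    have h6 : Real.exp (-b) ≤ m.factorial / b ^ m := by
      rw [Real.exp_neg, inv_le_comm₀ (Real.exp_pos _) (by positivity), inv_div]
      exact h5
    refine h6.trans ?_
    rw [Real.rpow_neg (by positivity), Real.rpow_natCast, pow_mul, hb, hK]
    have h7 : (1 + r) ^ 2 ≤ 4 * r ^ 2 := by nlinarith
    have h8 : ((1 + r) ^ 2) ^ m ≤ (4 * r ^ 2) ^ m := by gcongr
    have e1 : (a * (r / n) ^ 2) ^ m = a ^ m * (r ^ 2) ^ m / (n : ℝ) ^ (2 * m) := by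
      rw [mul_pow, div_pow, div_pow, ← pow_mul (n : ℝ)]
      ring
    rw [e1]
    have h9 : (0 : ℝ) < a ^ m := by positivity
    have h10 : (0 : ℝ) < (r ^ 2) ^ m := by positivity
    have h11 : (0 : ℝ) < ((1 + r) ^ 2) ^ m := by positivity
    have h12 : (0 : ℝ) < (n : ℝ) ^ (2 * m) := by positivity
    rw [mul_pow] at h8
    have h13 : (m.factorial : ℝ) / (a ^ m * (r ^ 2) ^ m / (n : ℝ) ^ (2 * m)) =
        (m.factorial * (n : ℝ) ^ (2 * m) / a ^ m) * ((r ^ 2) ^ m)⁻¹ := by
      field_simp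
    have h14 : (m.factorial : ℝ) * (n : ℝ) ^ (2 * m) * 4 ^ m / a ^ m * (((1 + r) ^ 2) ^ m)⁻¹ =
        (m.factorial * (n : ℝ) ^ (2 * m) / a ^ m) * (4 ^ m * (((1 + r) ^ 2) ^ m)⁻¹) := by
      ring
    rw [h13, h14]
    refine mul_le_mul_of_nonneg_left ?_ (by positivity)
    rw [← div_eq_mul_inv, le_div_iff₀ h11, inv_mul_le_iff₀ h10]
    linarith
  refine (ENNReal.tsum_le_tsum hle).trans ?_
  refine (ENNReal.tsum_comp_le_tsum_of_injective hf (fun y => ENNReal.ofReal
    (K / a ^ m * (1 + ‖Q.j (y : E)‖) ^ (-((2 * m : ℕ) : ℝ))))).trans ?_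
  rw [← ENNReal.ofReal_tsum_of_nonneg (fun y => by positivity) (hsum'.mul_left _), tsum_mul_left]
  refine ENNReal.ofReal_le_ofReal (le_of_eq ?_)
  ring

/-! ### weights -/

variable {V : Subgroup (𝓞 E)ˣ}

theorem isFull (h2 : finrank F E = 2) (hV : Q.IsBig V) : IsFull Q.ell V where
  discrete := Q.discrete_lat h2 hV.le
  span := Q.span_lat h2 hV
  ker := Q.finite_ker h2 hV.le

/-- a weight with bounded support -/
structure IsTorWeight (V : Subgroup (𝓞 E)ˣ) (β : Tor Q.ell → ℝ≥0∞) (R : ℝ) : Prop where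
  isWeight : IsWeight V β
  bdd : ∀ s, β s ≠ 0 → ‖s.val‖ ≤ R

theorem exists_isTorWeight (h2 : finrank F E = 2) (hV : Q.IsBig V) :
    ∃ (β : Tor Q.ell → ℝ≥0∞) (R : ℝ), Q.IsTorWeight V β R := by
  obtain ⟨β, hβ, R, hR⟩ := (Q.isFull h2 hV).exists_isWeight
  exact ⟨β, R, hβ, hR⟩

theorem IsTorWeight.lintegral_lt_top {β : Tor Q.ell → ℝ≥0∞} {R : ℝ} (h : Q.IsTorWeight V β R) :
    ∫⁻ s, β s < ∞ := by
  have hle : ∀ s : Tor Q.ell, β s ≤
      (Metric.closedBall (0 : InfinitePlace F → ℝ) R).indicator 1 s.val := by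
    intro s
    by_cases hs : β s = 0
    · rw [hs]; exact zero_le
    · rw [Set.indicator_of_mem (mem_closedBall_zero_iff.mpr (h.bdd s hs))]
      exact h.isWeight.le_one s
  refine (lintegral_mono hle).trans_lt ?_
  have h1 : ∫⁻ s : Tor Q.ell, (Metric.closedBall (0 : InfinitePlace F → ℝ) R).indicator 1 s.val =
      ∫⁻ s : InfinitePlace F → ℝ, (Metric.closedBall (0 : InfinitePlace F → ℝ) R).indicator 1 s :=
    rfl
  rw [h1, lintegral_indicator_one Metric.isClosed_closedBall.measurableSet]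
  exact measure_closedBall_lt_top

/-! ### the sums -/

/-- the sum over the orbits of `V` in `S` of the Bessel terms -/
def GS (V : Subgroup (𝓞 E)ˣ) (S : SubMulAction V E) (P : InfinitePlace F → ℂ × ℝ) : ℂ :=
  ∑' o : Quotient (orbitRel V S), WB P (Algebra.norm F (o.out : E))

/-- the theta function of `S`, as a function of the point and of the torus variable -/
def theta (S : Set E) (P : InfinitePlace F → ℂ × ℝ) (t : InfinitePlace F → ℝ) : ℂ :=
  ∑' x : S, G P t (Q.j x)

/-- a subset of a lattice, without zero -/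
structure IsSmall (S : Set E) (n : ℕ) : Prop where
  ne : n ≠ 0
  int : ∀ x ∈ S, IsIntegral ℤ ((n : E) * x)
  zero : (0 : E) ∉ S

variable {S : SubMulAction V E}

theorem smul_free {n : ℕ} (hS : IsSmall (S : Set E) n) (u : V) (x : S) (h : u • x = x) :
    u = 1 := by
  have hx0 : (x : E) ≠ 0 := fun h' => hS.zero (h' ▸ x.2)
  have h1 : (((u : (𝓞 E)ˣ) : 𝓞 E) : E) * (x : E) = x := congrArg Subtype.val h
  have h2 : (((u : (𝓞 E)ˣ) : 𝓞 E) : E) = 1 := mul_right_cancel₀ hx0 (h1.trans (one_mul _).symm)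
  refine Subtype.ext (NumberField.Units.coe_injective E ?_)
  simpa using h2

theorem ker_smul' (hV : V ≤ Q.U1) (P : InfinitePlace F → ℂ × ℝ) (u : V) (x : S)
    (s : Tor Q.ell) : Q.ker P ((u • x : S) : E) (u • s) = Q.ker P (x : E) s :=
  Q.ker_smul P (hV u.2) (x : E) s

theorem countable_E : Countable E := countable_numberField E

/-- **absolute convergence** -/
theorem lintegral_tsum_le {n : ℕ} (h2 : finrank F E = 2) (hn : n ≠ 0) {β : Tor Q.ell → ℝ≥0∞}
    {R : ℝ} (hβ : Q.IsTorWeight V β R) {m : ℕ} (hm : finrank ℚ E < 2 * m) :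
    ∃ C : ℝ, 0 ≤ C ∧ ∀ (P : InfinitePlace F → ℂ × ℝ) (c : ℝ), 0 < c → (∀ w, c ≤ (P w).2) →
      ∀ S : Set E, IsSmall S n →
      ∫⁻ s, ∑' x : S, ‖Q.ker P (x : E) s‖ₑ ∂(volume : Measure (Tor Q.ell)).withDensity β ≤
        ENNReal.ofReal (C * (∏ w, (P w).2) / c ^ m) := by
  obtain ⟨C, hC, hb⟩ := Q.exists_sum_bound h2 hn hm
  set M : ℝ := (∫⁻ s, β s).toReal with hM
  have hMt : ∫⁻ s, β s = ENNReal.ofReal M :=
    (ENNReal.ofReal_toReal (hβ.lintegral_lt_top Q).ne).symm
  have hM0 : 0 ≤ M := ENNReal.toReal_nonneg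
  refine ⟨M * (C / (2 * π * Real.exp (-(2 * R))) ^ m), by positivity, fun P c hc hP S hS => ?_⟩
  have hP0 : ∀ w, 0 < (P w).2 := fun w => hc.trans_le (hP w)
  have hprod : 0 ≤ ∏ w, (P w).2 := Finset.prod_nonneg fun w _ => (hP0 w).le
  set a : ℝ := 2 * π * (c * Real.exp (-(2 * R))) with ha
  have ha0 : 0 < a := by positivity
  -- pointwise bound on the support of the weight
  have hpt : ∀ s : Tor Q.ell, β s ≠ 0 → ∑' x : S, ‖Q.ker P (x : E) s‖ₑ ≤
      ENNReal.ofReal ((∏ w, (P w).2) * (C / a ^ m)) := by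
    intro s hs
    have hs' := hβ.bdd s hs
    have hsw : ∀ w, |s.val w| ≤ R := fun w => (norm_le_pi_norm s.val w).trans hs'
    have h3 : ∀ x : S, ‖Q.ker P (x : E) s‖ₑ ≤ ENNReal.ofReal (∏ w, (P w).2) *
        ENNReal.ofReal (Real.exp (-(a * ‖Q.j (x : E)‖ ^ 2))) := by
      intro x
      rw [← ENNReal.ofReal_mul hprod, ← ofReal_norm]
      refine ENNReal.ofReal_le_ofReal ?_
      have h4 := norm_G_le (P := P) hP0 (t := fun w => Real.exp (2 * s.val w))
        (c := c * Real.exp (-(2 * R))) (by positivity) (fun w => ?_) (fun w => ?_) (Q.j (x : E))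
      · refine h4.trans (le_of_eq ?_)
        rw [ha]
        congr 3
        ring
      · refine mul_le_mul (hP w) (Real.exp_le_exp.mpr ?_) (Real.exp_pos _).le (hP0 w).le
        have := (abs_le.mp (hsw w)).1
        linarith
      · rw [div_eq_mul_inv, ← Real.exp_neg]
        refine mul_le_mul (hP w) (Real.exp_le_exp.mpr ?_) (Real.exp_pos _).le (hP0 w).le
        have := (abs_le.mp (hsw w)).2
        linarith
    refine (ENNReal.tsum_le_tsum h3).trans ?_
    rw [ENNReal.tsum_mul_left, ENNReal.ofReal_mul hprod]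
    exact mul_le_mul_right (hb a ha0 S hS.int hS.zero) _
  have hcount : Countable E := countable_numberField E
  rw [lintegral_withDensity_eq_lintegral_mul₀ hβ.isWeight.meas.aemeasurable
    (Measurable.tsum fun x : S => (Q.measurable_ker P (x : E)).enorm).aemeasurable]
  calc ∫⁻ s, (β * fun s => ∑' x : S, ‖Q.ker P (x : E) s‖ₑ) s
      ≤ ∫⁻ s, β s * ENNReal.ofReal ((∏ w, (P w).2) * (C / a ^ m)) := by
        refine lintegral_mono fun s => ?_
        simp only [Pi.mul_apply]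
        by_cases hs : β s = 0
        · rw [hs, zero_mul, zero_mul]
        · exact mul_le_mul_right (hpt s hs) _
    _ = ENNReal.ofReal (M * ((∏ w, (P w).2) * (C / a ^ m))) := by
        rw [lintegral_mul_const _ hβ.isWeight.meas, hMt, ← ENNReal.ofReal_mul hM0]
    _ = _ := by
        congr 1
        rw [ha]
        have : (2 * π * (c * Real.exp (-(2 * R)))) ^ m =
          (2 * π * Real.exp (-(2 * R))) ^ m * c ^ m := by
          rw [← mul_pow]; ring
        rw [this]
        field_simp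

variable {I : Type*} {r : I → S}

/-- absolute convergence of the sum over the orbits, with polynomial bounds -/
theorem exists_bound_WB (h2 : finrank F E = 2) (hV : Q.IsBig V) {n : ℕ} (hn : n ≠ 0) {m : ℕ}
    (hm : finrank ℚ E < 2 * m) :
    ∃ C : ℝ, 0 ≤ C ∧ ∀ (P : InfinitePlace F → ℂ × ℝ) (c : ℝ), 0 < c → (∀ w, c ≤ (P w).2) →
      ∀ S : SubMulAction V E, IsSmall (S : Set E) n → ∀ (I : Type*) (r : I → S),
        IsReps (U := V) r →
      ∑' i, ENNReal.ofReal (WBn P (Algebra.norm F (r i : E))) ≤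
        ENNReal.ofReal (C * (∏ w, (P w).2) / c ^ m) := by
  obtain ⟨β, R, hβ⟩ := Q.exists_isTorWeight h2 hV
  obtain ⟨C, hC, h⟩ := Q.lintegral_tsum_le h2 hn hβ hm
  refine ⟨C, hC, fun P c hc hP S hS I r hr => ?_⟩
  have hcount : Countable E := countable_numberField E
  have h1 := h P c hc hP (S : Set E) hS
  have hP0 : ∀ w, 0 < (P w).2 := fun w => hc.trans_le (hP w)
  have h3 := lunfold_free (G := V) (μ := (volume : Measure (Tor Q.ell))) hβ.isWeight hr
    (smul_free hS) (k := fun (x : S) s => ‖Q.ker P (x : E) s‖ₑ)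
    (fun x => (Q.measurable_ker P (x : E)).enorm)
    (fun u x s => by simp only [Q.ker_smul' hV.le])
  have h4 : ∀ i, ∫⁻ s, ‖Q.ker P ((r i : S) : E) s‖ₑ =
      ENNReal.ofReal (WBn P (Algebra.norm F (r i : E))) := by
    intro i
    refine Q.lintegral_ker h2 hP0 ?_
    intro h'
    exact hS.zero (h' ▸ (r i).2)
  rw [← tsum_congr h4, ← h3]
  exact h1

/-- **The torus average**, any system of representatives. -/
theorem sum_WB_eq (h2 : finrank F E = 2) (hV : V ≤ Q.U1) {n : ℕ} (hS : IsSmall (S : Set E) n)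
    {β : Tor Q.ell → ℝ≥0∞} {R : ℝ} (hβ : Q.IsTorWeight V β R) (hr : IsReps (U := V) r)
    {P : InfinitePlace F → ℂ × ℝ} (hP : ∀ w, 0 < (P w).2) :
    ∑' i, WB P (Algebra.norm F (r i : E)) =
      ∫ s, Q.theta (S : Set E) P (fun w => Real.exp (2 * s.val w))
        ∂(volume : Measure (Tor Q.ell)).withDensity β := by
  have hcount : Countable E := countable_numberField E
  have hcS : Countable S := inferInstanceAs (Countable {x // x ∈ S})
  obtain ⟨C, -, h⟩ := Q.lintegral_tsum_le h2 hS.ne hβ (m := finrank ℚ E + 1) (by omega)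
  obtain ⟨c, hc, hcP⟩ : ∃ c : ℝ, 0 < c ∧ ∀ w, c ≤ (P w).2 := by
    rcases isEmpty_or_nonempty (InfinitePlace F) with hι | hι
    · exact ⟨1, one_pos, fun i => isEmptyElim i⟩
    · obtain ⟨i, hi⟩ := Finite.exists_min fun w => (P w).2
      exact ⟨_, hP i, hi⟩
  have h3 := unfold_free (G := V) (μ := (volume : Measure (Tor Q.ell))) hβ.isWeight hr
    (smul_free hS) (k := fun (x : S) s => Q.ker P (x : E) s)
    (fun x => Q.measurable_ker P (x : E))
    (fun u x s => Q.ker_smul' hV P u x s)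
    ((h P c hc hcP (S : Set E) hS).trans_lt ENNReal.ofReal_lt_top).ne
  have h4 : ∀ i, ∫ s, Q.ker P ((r i : S) : E) s = WB P (Algebra.norm F (r i : E)) := by
    intro i
    refine Q.integral_ker h2 P ?_
    intro h'
    exact hS.zero (h' ▸ (r i).2)
  rw [← tsum_congr h4, ← h3]
  rfl

theorem GS_eq (h2 : finrank F E = 2) (hV : V ≤ Q.U1) {n : ℕ} (hS : IsSmall (S : Set E) n)
    {β : Tor Q.ell → ℝ≥0∞} {R : ℝ} (hβ : Q.IsTorWeight V β R)
    {P : InfinitePlace F → ℂ × ℝ} (hP : ∀ w, 0 < (P w).2) :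
    GS V S P = ∫ s, Q.theta (S : Set E) P (fun w => Real.exp (2 * s.val w))
        ∂(volume : Measure (Tor Q.ell)).withDensity β :=
  Q.sum_WB_eq h2 hV hS hβ isReps_out hP

/-- any system of representatives gives the same sum -/
theorem GS_eq_tsum (h2 : finrank F E = 2) (hV : Q.IsBig V) {n : ℕ} (hS : IsSmall (S : Set E) n)
    (hr : IsReps (U := V) r) {P : InfinitePlace F → ℂ × ℝ} (hP : ∀ w, 0 < (P w).2) :
    GS V S P = ∑' i, WB P (Algebra.norm F (r i : E)) := by
  obtain ⟨β, R, hβ⟩ := Q.exists_isTorWeight h2 hV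
  rw [Q.GS_eq h2 hV.le hS hβ hP, Q.sum_WB_eq h2 hV.le hS hβ hr hP]

/-- **(D1)**: transformation laws of theta functions which hold for all values of the torus
variable hold for the averages. -/
theorem GS_law (h2 : finrank F E = 2) (hV : Q.IsBig V) {S S' : SubMulAction V E} {n n' : ℕ}
    (hS : IsSmall (S : Set E) n) (hS' : IsSmall (S' : Set E) n')
    {P P' : InfinitePlace F → ℂ × ℝ} (hP : ∀ w, 0 < (P w).2) (hP' : ∀ w, 0 < (P' w).2) {c : ℂ}
    (h : ∀ t : InfinitePlace F → ℝ, (∀ w, 0 < t w) →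
      Q.theta (S : Set E) P' t = c * Q.theta (S' : Set E) P t) :
    GS V S P' = c * GS V S' P := by
  obtain ⟨β, R, hβ⟩ := Q.exists_isTorWeight h2 hV
  rw [Q.GS_eq h2 hV.le hS hβ hP', Q.GS_eq h2 hV.le hS' hβ hP, ← integral_const_mul]
  refine integral_congr_ae (Filter.Eventually.of_forall fun s => ?_)
  exact h _ fun w => Real.exp_pos _

end Quad

end Fermat.Agent.LT.Torus

end
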