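import Fermat.Agent.LT.Torus.Sum
import Fermat.Agent.LT.B11.Wh
import Fermat.Agent.LT.B11.Regroup

/-!
# The averages for the sets `T N h k`
-/

set_option autoImplicit false
set_option linter.unusedSectionVars false

noncomputable section

open MeasureTheory ENNReal MulAction NumberField Module
open scoped Real

namespace Fermat.Agent.LT.Torus

open Fermat.Agent.LT.WeilInf Fermat.Agent.LT.B11 Fermat.Agent.LT.SAd

variable {F E : Type*} [Field F] [NumberField F] [Field E] [NumberField E] [Algebra F E]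
  [IsTotallyComplex F]

/-- the points with coordinates in `ℂ × ℝ` -/
def pts (P : Xi F) (w : InfinitePlace F) : ℂ × ℝ := ((P w).z, (P w).y)

theorem pts_pos (P : Xi F) (w : InfinitePlace F) : 0 < (pts P w).2 := (P w).y_pos

theorem wh_eq_WB (P : Xi F) (ξ : F) : wh P ξ = WB (pts P) ξ := by
  rw [WB_eq]
  unfold wh
  refine Finset.prod_congr rfl fun w _ => ?_
  have e1 : 4 * π * ‖w.embedding ξ‖ * (P w).y = 4 * π * (P w).y * ‖w.embedding ξ‖ := by ring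
  have e2 : Complex.exp (2 * π * Complex.I * ((2 * (w.embedding ξ * (P w).z).re : ℝ) : ℂ)) =
      WeilInf.E (2 * ((P w).z * w.embedding ξ).re) 0 := by
    unfold WeilInf.E
    congr 1
    rw [mul_comm (w.embedding ξ)]
    push_cast
    ring
  rw [e1, e2]
  simp only [pts]
  ring

/-- the group of units of `E` attached to a group of units of `𝓞 E` -/
def toE (V : Subgroup (𝓞 E)ˣ) : Subgroup Eˣ :=
  V.map (Units.map ((algebraMap (𝓞 E) E : 𝓞 E →+* E) : 𝓞 E →* E))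

theorem mem_toE {V : Subgroup (𝓞 E)ˣ} {u : Eˣ} :
    u ∈ toE V ↔ ∃ v ∈ V, ((v : 𝓞 E) : E) = (u : E) := by
  constructor
  · rintro ⟨v, hv, rfl⟩
    exact ⟨v, hv, rfl⟩
  · rintro ⟨v, hv, h⟩
    exact ⟨v, hv, Units.ext h⟩

namespace Quad

variable (Q : Quad F E)

open Classical in
/-- comparison with sums over `Eˣ ⧸ V` -/
theorem qsum_eq_GS (h2 : finrank F E = 2) {V : Subgroup (𝓞 E)ˣ} (hV : Q.IsBig V)
    {S : SubMulAction V E} {n : ℕ} (hS : IsSmall (S : Set E) n)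
    {P : InfinitePlace F → ℂ × ℝ} (hP : ∀ w, 0 < (P w).2) :
    qsum (toE V) (fun x : Eˣ => if (x : E) ∈ S then WB P (Algebra.norm F (x : E)) else 0) =
      GS V S P := by
  let I := {c : Eˣ ⧸ toE V // ((c.out : Eˣ) : E) ∈ S}
  let r : I → S := fun i => ⟨((i.1.out : Eˣ) : E), i.2⟩
  have hmk : ∀ x : Eˣ, ∃ v ∈ V, ((QuotientGroup.mk x : Eˣ ⧸ toE V).out : Eˣ) = x *
      Units.map ((algebraMap (𝓞 E) E : 𝓞 E →+* E) : 𝓞 E →* E) v := by
    intro x
    have h1 : (QuotientGroup.mk ((QuotientGroup.mk x : Eˣ ⧸ toE V).out) : Eˣ ⧸ toE V) =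
        QuotientGroup.mk x := QuotientGroup.out_eq' _
    have h3 := (QuotientGroup.eq.mp h1.symm)
    obtain ⟨v, hv, h⟩ := h3
    refine ⟨v, hv, ?_⟩
    rw [h]
    group
  have hr : IsReps (U := V) r := by
    constructor
    · intro x
      have hx0 : (x : E) ≠ 0 := fun h' => hS.zero (h' ▸ x.2)
      obtain ⟨v, hv, h⟩ := hmk (Units.mk0 (x : E) hx0)
      have h3 : (((QuotientGroup.mk (Units.mk0 (x : E) hx0) : Eˣ ⧸ toE V).out : Eˣ) : E) =
          (((⟨v, hv⟩ : V) • x : S) : E) := by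
        rw [h]
        change (x : E) * ((v : 𝓞 E) : E) = ((v : 𝓞 E) : E) * (x : E)
        ring
      refine ⟨⟨QuotientGroup.mk (Units.mk0 (x : E) hx0), ?_⟩, ⟨v, hv⟩, ?_⟩
      · rw [h3]
        exact ((⟨v, hv⟩ : V) • x : S).2
      · exact Subtype.ext h3.symm
    · rintro ⟨i, hi⟩ ⟨j, hj⟩ ⟨g, hg⟩
      have h1 : (((g : (𝓞 E)ˣ) : 𝓞 E) : E) * ((i.out : Eˣ) : E) = ((j.out : Eˣ) : E) :=
        congrArg Subtype.val hg
      refine Subtype.ext ?_
      change i = j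
      rw [← QuotientGroup.out_eq' i, ← QuotientGroup.out_eq' j, QuotientGroup.eq, mem_toE]
      refine ⟨g, g.2, ?_⟩
      rw [Units.val_mul, ← h1, Units.val_inv_eq_inv_val]
      have hi0 : ((i.out : Eˣ) : E) ≠ 0 := Units.ne_zero _
      field_simp
  rw [Q.GS_eq_tsum h2 hV hS hr hP]
  unfold qsum
  refine Eq.trans ?_ (tsum_subtype {c : Eˣ ⧸ toE V | ((c.out : Eˣ) : E) ∈ S}
    (fun c : Eˣ ⧸ toE V => WB P (Algebra.norm F ((c.out : Eˣ) : E)))).symm
  refine tsum_congr fun c => ?_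
  rw [Set.indicator_apply]
  rfl

variable {N : ℕ} [NeZero N]

/-- the set `T N h k` with the action of the units congruent to one -/
def TS (N : ℕ) [NeZero N] (h : Eˣ) (k : ℕ) :
    SubMulAction (Q.UI (Ideal.span {(N : 𝓞 E) ^ k})) E where
  carrier := SAd.T N (h : E) k
  smul_mem' := by
    rintro u x ⟨h1, h3⟩
    have hu := (Q.mem_UI.mp u.2).2
    obtain ⟨y, hy⟩ := Ideal.mem_span_singleton.mp hu
    have hy' : ((((u : (𝓞 E)ˣ) : 𝓞 E) : E)) - 1 = (N : E) ^ k * (y : E) := by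
      have := congrArg (algebraMap (𝓞 E) E) hy
      simpa using this
    have hui : IsIntegral ℤ ((((u : (𝓞 E)ˣ) : 𝓞 E) : E)) := ((u : (𝓞 E)ˣ) : 𝓞 E).2
    have hyi : IsIntegral ℤ (y : E) := y.2
    have hN0 : (N : E) ≠ 0 := Nat.cast_ne_zero.mpr (NeZero.ne N)
    have hh0 : (h : E) ≠ 0 := h.ne_zero
    change ((((u : (𝓞 E)ˣ) : 𝓞 E) : E)) * x ∈ SAd.T N (h : E) k
    refine ⟨(RS E N).mul_mem (mem_RS_of_isIntegral hui) h1, ?_⟩
    have e : ((h : E) * (N : E) ^ k)⁻¹ * (((((u : (𝓞 E)ˣ) : 𝓞 E) : E)) * x - h) =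
        ((((u : (𝓞 E)ˣ) : 𝓞 E) : E)) * (((h : E) * (N : E) ^ k)⁻¹ * (x - h)) + y := by
      have e2 : (y : E) = ((N : E) ^ k)⁻¹ * (((((u : (𝓞 E)ˣ) : 𝓞 E) : E)) - 1) := by
        rw [hy']
        field_simp
      rw [e2]
      field_simp
      ring
    rw [e]
    exact (AS E N).add_mem ((AS E N).mul_mem (mem_AS_of_isIntegral hui) h3)
      (mem_AS_of_isIntegral hyi)

theorem coe_TS (h : Eˣ) (k : ℕ) : (Q.TS N h k : Set E) = SAd.T N (h : E) k := rfl

end Quad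

omit [Algebra F E] [IsTotallyComplex F] in
theorem inv_pow_notMem_AS {N : ℕ} (hN : 2 ≤ N) {k : ℕ} (hk : k ≠ 0) :
    ((N : E) ^ k)⁻¹ ∉ AS E N := by
  rintro ⟨n, hn, hc, hi⟩
  have h1 : (algebraMap ℚ E) ((n : ℚ) * ((N : ℚ) ^ k)⁻¹) = (n : E) * ((N : E) ^ k)⁻¹ := by simp
  rw [← h1] at hi
  have h2 : IsIntegral ℤ ((n : ℚ) * ((N : ℚ) ^ k)⁻¹) :=
    (isIntegral_algHom_iff ((algebraMap ℚ E).toIntAlgHom) (algebraMap ℚ E).injective).1 hi
  obtain ⟨m, hm⟩ := isIntegral_rat h2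
  have hN0 : (N : ℚ) ≠ 0 := by positivity
  have h3 : (n : ℚ) = m * (N : ℚ) ^ k := by
    rw [hm]
    field_simp
  have h4 : (n : ℤ) = m * (N : ℤ) ^ k := by exact_mod_cast h3
  have h5 : (N : ℤ) ∣ (n : ℤ) := by
    rw [h4]
    exact Dvd.dvd.mul_left (dvd_pow_self _ hk) _
  have h6 : N ∣ n := by exact_mod_cast h5
  have h7 : N ∣ 1 := by
    rw [← hc]
    exact Nat.dvd_gcd h6 dvd_rfl
  have := Nat.le_of_dvd one_pos h7
  omega

omit [Algebra F E] [IsTotallyComplex F] in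
theorem exists_isSmall_T {N : ℕ} [NeZero N] (hN : 2 ≤ N) {k : ℕ} (hk : k ≠ 0) (h : Eˣ) :
    ∃ n, Quad.IsSmall (SAd.T N (h : E) k) n := by
  have hN0 : (N : E) ≠ 0 := Nat.cast_ne_zero.mpr (NeZero.ne N)
  have hh0 : (h : E) ≠ 0 := h.ne_zero
  obtain ⟨j, hj⟩ := exists_isIntegral_of_mem_Lam N hh0
  refine ⟨N ^ j, pow_ne_zero _ (NeZero.ne N), fun x hx => ?_, fun h0 => ?_⟩
  · rw [Nat.cast_pow]
    refine hj x ⟨hx.1, ?_⟩
    have e : (h : E)⁻¹ * x = ((N ^ k : ℕ) : E) * (((h : E) * (N : E) ^ k)⁻¹ * (x - h)) + 1 := by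
      push_cast
      field_simp
      ring
    rw [e]
    exact (AS E N).add_mem ((AS E N).mul_mem (natCast_mem_AS _) hx.2) (AS E N).one_mem
  · have h1 := (AS E N).neg_mem h0.2
    refine inv_pow_notMem_AS (E := E) hN hk ?_
    convert h1 using 1
    field_simp
    ring

namespace Quad

variable (Q : Quad F E) {N : ℕ} [NeZero N]

/-- the group of the norm one units congruent to one modulo `N ^ k` -/
theorem toE_UI (h2 : finrank F E = 2) (k : ℕ) :
    toE (Q.UI (Ideal.span {(N : 𝓞 E) ^ k})) =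
      (RU E N ⊓ (Units.map (Algebra.norm F : E →* F)).ker) ⊓ VN E N k := by
  have hN0 : (N : E) ≠ 0 := Nat.cast_ne_zero.mpr (NeZero.ne N)
  ext u
  rw [mem_toE, Subgroup.mem_inf, Subgroup.mem_inf, mem_RU, MonoidHom.mem_ker, mem_VN]
  constructor
  · rintro ⟨v, hv, hvu⟩
    obtain ⟨hv1, hv2⟩ := Q.mem_UI.mp hv
    have hvi : ((u⁻¹ : Eˣ) : E) = (((v⁻¹ : (𝓞 E)ˣ) : 𝓞 E) : E) := by
      rw [Units.val_inv_eq_inv_val, ← hvu]
      refine inv_eq_of_mul_eq_one_right ?_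
      rw [← map_mul (algebraMap (𝓞 E) E), Units.mul_inv, map_one]
    have i1 : IsIntegral ℤ (u : E) := by rw [← hvu]; exact ((v : (𝓞 E)ˣ) : 𝓞 E).2
    have i2 : IsIntegral ℤ ((u⁻¹ : Eˣ) : E) := by rw [hvi]; exact ((v⁻¹ : (𝓞 E)ˣ) : 𝓞 E).2
    obtain ⟨y, hy⟩ := Ideal.mem_span_singleton.mp hv2
    have hy' : (u : E) - 1 = (N : E) ^ k * (y : E) := by
      have := congrArg (algebraMap (𝓞 E) E) hy
      rw [← hvu]
      simpa using this
    have hyi : IsIntegral ℤ (y : E) := y.2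
    refine ⟨⟨⟨mem_RS_of_isIntegral i1, mem_RS_of_isIntegral i2⟩, ?_⟩, ?_, ?_,
      mem_AS_of_isIntegral i1, mem_AS_of_isIntegral i2⟩
    · refine Units.ext ?_
      rw [Units.coe_map, Units.val_one, ← hvu]
      exact Q.norm_unit h2 hv1
    · rw [hy', ← mul_assoc, inv_mul_cancel₀ (pow_ne_zero _ hN0), one_mul]
      exact mem_AS_of_isIntegral hyi
    · have e : ((N : E) ^ k)⁻¹ * (((u⁻¹ : Eˣ) : E) - 1) = -(((u⁻¹ : Eˣ) : E) * y) := by
        have e2 : (y : E) = ((N : E) ^ k)⁻¹ * ((u : E) - 1) := by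
          rw [hy']
          field_simp
        have hu0 : (u : E) ≠ 0 := u.ne_zero
        rw [e2, Units.val_inv_eq_inv_val]
        field_simp
        ring
      rw [e]
      exact (AS E N).neg_mem ((AS E N).mul_mem (mem_AS_of_isIntegral i2) (mem_AS_of_isIntegral hyi))
  · rintro ⟨⟨⟨h1, h3⟩, h4⟩, h5, -, h6, h7⟩
    have i1 : IsIntegral ℤ (u : E) := isIntegral_of_mem h1 h6
    have i2 : IsIntegral ℤ ((u⁻¹ : Eˣ) : E) := isIntegral_of_mem h3 h7
    have hRi : ((N : E) ^ k)⁻¹ ∈ RS E N :=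
      ⟨k, by rw [mul_inv_cancel₀ (pow_ne_zero _ hN0)]; exact isIntegral_one⟩
    have i3 : IsIntegral ℤ (((N : E) ^ k)⁻¹ * ((u : E) - 1)) :=
      isIntegral_of_mem ((RS E N).mul_mem hRi ((RS E N).sub_mem h1 (RS E N).one_mem)) h5
    let v : (𝓞 E)ˣ := ⟨⟨u, i1⟩, ⟨((u⁻¹ : Eˣ) : E), i2⟩,
      RingOfIntegers.ext (by
        change (u : E) * ((u⁻¹ : Eˣ) : E) = 1
        rw [Units.mul_inv]),
      RingOfIntegers.ext (by
        change ((u⁻¹ : Eˣ) : E) * (u : E) = 1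
        rw [Units.inv_mul])⟩
    have hvu : ((v : 𝓞 E) : E) = (u : E) := rfl
    refine ⟨v, Q.mem_UI.mpr ⟨?_, ?_⟩, hvu⟩
    · rw [Q.mem_U1, hvu, ← Q.algebraMap_norm h2]
      have h8 := congrArg Units.val h4
      rw [Units.coe_map, Units.val_one] at h8
      have h9 : Algebra.norm F (u : E) = 1 := h8
      rw [h9, map_one]
    · let y : 𝓞 E := ⟨((N : E) ^ k)⁻¹ * ((u : E) - 1), i3⟩
      have hy : (algebraMap (𝓞 E) E) y = ((N : E) ^ k)⁻¹ * ((u : E) - 1) := rfl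
      have hvu' : (algebraMap (𝓞 E) E) (v : 𝓞 E) = (u : E) := rfl
      refine Ideal.mem_span_singleton.mpr ⟨y, IsFractionRing.injective (𝓞 E) E ?_⟩
      rw [map_sub, map_one, map_mul, map_pow, map_natCast, hy, hvu']
      field_simp

theorem isBig_N (k : ℕ) : Q.IsBig (Q.UI (Ideal.span {(N : 𝓞 E) ^ k})) := by
  refine Q.isBig_UI ?_
  rw [Ne, Ideal.span_singleton_eq_bot]
  exact pow_ne_zero _ (Nat.cast_ne_zero.mpr (NeZero.ne N))

open Classical in
/-- the class sums of `B11.Dat.G` are averages over the torus. -/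
theorem qsum_T_eq_GS (h2 : finrank F E = 2) (hN : 2 ≤ N) {k : ℕ} (hk : k ≠ 0) (h : Eˣ)
    (P : Xi F) :
    qsum ((RU E N ⊓ (Units.map (Algebra.norm F : E →* F)).ker) ⊓ VN E N k)
      (fun x : Eˣ => if (x : E) ∈ RS E N ∧ x * h⁻¹ ∈ VN E N k
        then wh P (Algebra.norm F (x : E)) else 0) =
      GS _ (Q.TS N h k) (pts P) := by
  obtain ⟨n, hn⟩ := exists_isSmall_T hN hk h
  rw [← Q.qsum_eq_GS h2 (Q.isBig_N k) (S := Q.TS N h k) hn (pts_pos P), Q.toE_UI h2]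
  refine qsum_congr _ fun x => ?_
  simp only [wh_eq_WB, ← mem_T_iff_VN hk]
  rfl

open Classical in
/-- **(D1) for the sets `T N h k`**, in the form of `B11.Dat.G`: a transformation law of theta
functions, valid for all values of the torus variable, gives the law of the sums over classes. -/
theorem qsum_law (h2 : finrank F E = 2) (hN : 2 ≤ N) {k : ℕ} (hk : k ≠ 0) {h h' : Eˣ}
    {P P' : Xi F} {c : ℂ}
    (H : ∀ t : InfinitePlace F → ℝ, (∀ w, 0 < t w) →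
      ∑' x : SAd.T N (h : E) k, G (pts P') t (Q.j (x : E)) =
        c * ∑' x : SAd.T N (h' : E) k, G (pts P) t (Q.j (x : E))) :
    qsum ((RU E N ⊓ (Units.map (Algebra.norm F : E →* F)).ker) ⊓ VN E N k)
      (fun x : Eˣ => if (x : E) ∈ RS E N ∧ x * h⁻¹ ∈ VN E N k
        then wh P' (Algebra.norm F (x : E)) else 0) =
      c * qsum ((RU E N ⊓ (Units.map (Algebra.norm F : E →* F)).ker) ⊓ VN E N k)
        (fun x : Eˣ => if (x : E) ∈ RS E N ∧ x * h'⁻¹ ∈ VN E N k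
          then wh P (Algebra.norm F (x : E)) else 0) := by
  rw [Q.qsum_T_eq_GS h2 hN hk, Q.qsum_T_eq_GS h2 hN hk]
  obtain ⟨n, hn⟩ := exists_isSmall_T hN hk h
  obtain ⟨n', hn'⟩ := exists_isSmall_T hN hk h'
  exact Q.GS_law h2 (Q.isBig_N k) hn hn' (pts_pos P) (pts_pos P') H

end Quad

end Fermat.Agent.LT.Torus

end
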