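import Fermat.Agent.LT.Unfold

/-!
# Averages over a torus

`U` is a countable commutative group with a homomorphism `ell : U → (ι → ℝ)`; it acts on `ι → ℝ` by
translations.  `H` and `X` are countable `U`-sets, `U` acts freely on `X`, `π : X → H` is
equivariant.

* `IsFull.exists_isWeight`, `exists_isWeight` : if the stabilisers of the elements of `H` are mapped
  by `ell` onto full lattices, with finite kernels, then there is a weight of `U` on
  `H × (ι → ℝ)`.
* `average` : `∫_{U \ (H × (ι → ℝ))} a h * ∑_{π x = h} k x s = ∑_{x : X / U} a (π x) * ∫ k x s`.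
-/

set_option autoImplicit false
set_option linter.unusedSectionVars false

noncomputable section

open MeasureTheory ENNReal MulAction

namespace Fermat.Agent.LT.Torus

variable {U ι : Type*} [CommGroup U] [Fintype ι]

/-- `ι → ℝ`, with the action of `U` by translations through `- ell` -/
def Tor (_ell : Additive U →+ (ι → ℝ)) : Type _ := ι → ℝ

namespace Tor

variable {ell : Additive U →+ (ι → ℝ)}

/-- the underlying function -/
def val (s : Tor ell) : ι → ℝ := s

variable (ell) in
/-- the element with a given underlying function -/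
def mk (s : ι → ℝ) : Tor ell := s

@[simp] theorem val_mk (s : ι → ℝ) : (mk ell s).val = s := rfl

@[simp] theorem mk_val (s : Tor ell) : mk ell s.val = s := rfl

@[ext] theorem ext {s t : Tor ell} (h : s.val = t.val) : s = t := h

instance : MeasureSpace (Tor ell) := inferInstanceAs (MeasureSpace (ι → ℝ))

theorem measurable_val : Measurable (val : Tor ell → ι → ℝ) := measurable_id

theorem measurable_mk : Measurable (mk ell) := measurable_id

theorem volume_eq : (volume : Measure (Tor ell)) = (volume : Measure (ι → ℝ)).map (mk ell) :=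
  (Measure.map_id (μ := (volume : Measure (ι → ℝ)))).symm

instance : MulAction U (Tor ell) where
  smul u s := mk ell (s.val - ell (Additive.ofMul u))
  one_smul s := by
    change mk ell (s.val - ell (Additive.ofMul 1)) = s
    rw [ofMul_one, map_zero, sub_zero, mk_val]
  mul_smul u v s := by
    change mk ell (s.val - ell (Additive.ofMul (u * v))) =
      mk ell (s.val - ell (Additive.ofMul v) - ell (Additive.ofMul u))
    rw [ofMul_mul, map_add, sub_sub, add_comm]

@[simp] theorem val_smul (u : U) (s : Tor ell) :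
    (u • s).val = s.val - ell (Additive.ofMul u) := rfl

instance : MeasurableConstSMul U (Tor ell) where
  measurable_const_smul _ := measurable_mk.comp (measurable_val.sub_const _)

instance : SMulInvariantMeasure U (Tor ell) volume where
  measure_preimage_smul u s _ := by
    have h := measure_preimage_add_right (volume : Measure (ι → ℝ)) (-ell (Additive.ofMul u))
      (mk ell ⁻¹' s)
    have e : (fun s : Tor ell => u • s) ⁻¹' s =
        val ⁻¹' ((fun t => t + -ell (Additive.ofMul u)) ⁻¹' (mk ell ⁻¹' s)) := by
      ext t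
      simp only [Set.mem_preimage]
      rw [← sub_eq_add_neg]
      rfl
    rw [e]
    exact h

theorem integral_eq {G : Type*} [NormedAddCommGroup G] [NormedSpace ℝ G] (f : Tor ell → G) :
    ∫ s, f s = ∫ s : ι → ℝ, f (mk ell s) := rfl

theorem lintegral_eq (f : Tor ell → ℝ≥0∞) :
    ∫⁻ s, f s = ∫⁻ s : ι → ℝ, f (mk ell s) := rfl

end Tor

/-! ### weights -/

/-- the image of `V` under `ell` -/
def lattice (ell : Additive U →+ (ι → ℝ)) (V : Subgroup U) : Submodule ℤ (ι → ℝ) :=
  (V.toAddSubgroup.map ell).toIntSubmodule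

theorem mem_lattice {ell : Additive U →+ (ι → ℝ)} {V : Subgroup U} {x : ι → ℝ} :
    x ∈ lattice ell V ↔ ∃ u ∈ V, ell (Additive.ofMul u) = x := by
  constructor
  · rintro ⟨u, hu, rfl⟩
    exact ⟨u.toMul, hu, rfl⟩
  · rintro ⟨u, hu, rfl⟩
    exact ⟨Additive.ofMul u, hu, rfl⟩

/-- `V` is mapped onto a full lattice, with finite kernel -/
structure IsFull (ell : Additive U →+ (ι → ℝ)) (V : Subgroup U) : Prop where
  discrete : DiscreteTopology (lattice ell V)
  span : Submodule.span ℝ (lattice ell V : Set (ι → ℝ)) = ⊤
  ker : {u : V | ell (Additive.ofMul (u : U)) = 0}.Finite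

variable {ell : Additive U →+ (ι → ℝ)} {V : Subgroup U}

/-- the kernel of `ell` on `V` -/
def kerV (ell : Additive U →+ (ι → ℝ)) (V : Subgroup U) : Subgroup U where
  carrier := {u | u ∈ V ∧ ell (Additive.ofMul u) = 0}
  one_mem' := ⟨V.one_mem, by rw [ofMul_one, map_zero]⟩
  mul_mem' {a b} ha hb := ⟨V.mul_mem ha.1 hb.1, by
    rw [ofMul_mul, map_add, ha.2, hb.2, add_zero]⟩
  inv_mem' {a} ha := ⟨V.inv_mem ha.1, by rw [ofMul_inv, map_neg, ha.2, neg_zero]⟩

theorem IsFull.finite_kerV (h : IsFull ell V) : Finite (kerV ell V) := by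
  have h1 := h.ker
  refine Set.Finite.to_subtype ?_
  refine (h1.image (fun u : V => (u : U))).subset ?_
  rintro u ⟨hu, h0⟩
  exact ⟨⟨u, hu⟩, h0, rfl⟩

/-- **Existence of a weight**: a multiple of the indicator function of a fundamental
parallelotope. -/
theorem IsFull.exists_isWeight (h : IsFull ell V) :
    ∃ w : Tor ell → ℝ≥0∞, IsWeight V w ∧ ∃ R : ℝ, ∀ s, w s ≠ 0 → ‖s.val‖ ≤ R := by
  classical
  have hd := h.discrete
  have hZ : IsZLattice ℝ (lattice ell V) := ⟨h.span⟩
  have hfin := h.finite_kerV
  let b := (Module.Free.chooseBasis ℤ (lattice ell V)).ofZLatticeBasis ℝ (lattice ell V)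
  have hb : Submodule.span ℤ (Set.range b) = lattice ell V :=
    (Module.Free.chooseBasis ℤ (lattice ell V)).ofZLatticeBasis_span ℝ (lattice ell V)
  let D := ZSpan.fundamentalDomain b
  have hD : MeasurableSet D := ZSpan.fundamentalDomain_measurableSet b
  let c : ℝ≥0∞ := ((Nat.card (kerV ell V) : ℕ) : ℝ≥0∞)⁻¹
  refine ⟨fun s => D.indicator (fun _ => c) s.val, ⟨?_, fun s => ?_⟩, ?_⟩
  · exact (measurable_const.indicator hD).comp Tor.measurable_val
  · -- the unique translate in `D`
    obtain ⟨v, hv, huniq⟩ := ZSpan.exist_unique_vadd_mem_fundamentalDomain b s.val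
    have hv' : (v : ι → ℝ) ∈ lattice ell V := (SetLike.ext_iff.mp hb _).mp v.2
    obtain ⟨u₀, hu₀, hu₀v⟩ := mem_lattice.mp hv'
    have key : ∀ u : V, (u • s).val ∈ D ↔ (u : U) * u₀ ∈ kerV ell V := by
      intro u
      have e1 : (u • s).val = -ell (Additive.ofMul (u : U)) + s.val := by
        rw [neg_add_eq_sub]
        rfl
      rw [e1]
      constructor
      · intro hu
        have hm : -ell (Additive.ofMul (u : U)) ∈ Submodule.span ℤ (Set.range b) := by
          rw [hb]
          exact neg_mem (mem_lattice.mpr ⟨u, u.2, rfl⟩)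
        have h1 := huniq ⟨_, hm⟩ hu
        refine ⟨V.mul_mem u.2 hu₀, ?_⟩
        have h2 : -ell (Additive.ofMul (u : U)) = (v : ι → ℝ) := congrArg Subtype.val h1
        rw [ofMul_mul, map_add, hu₀v, ← h2, add_neg_cancel]
      · rintro ⟨-, h2⟩
        rw [ofMul_mul, map_add, hu₀v] at h2
        have h3 : -ell (Additive.ofMul (u : U)) = (v : ι → ℝ) := neg_eq_of_add_eq_zero_right h2
        rw [h3]
        exact hv
    have hval : ∀ u : V, D.indicator (fun _ => c) (u • s).val =
        if (u : U) * u₀ ∈ kerV ell V then c else 0 := by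
      intro u
      by_cases hu : (u : U) * u₀ ∈ kerV ell V
      · rw [if_pos hu, Set.indicator_of_mem ((key u).mpr hu)]
      · rw [if_neg hu, Set.indicator_of_notMem fun h' => hu ((key u).mp h')]
    rw [tsum_congr hval]
    let i : kerV ell V → V := fun k => ⟨k * u₀⁻¹, V.mul_mem k.2.1 (V.inv_mem hu₀)⟩
    have hi : Function.Injective i := fun a b' hab =>
      Subtype.coe_injective (mul_right_cancel (congrArg Subtype.val hab))
    rw [← hi.tsum_eq]
    · have h4 : ∀ k : kerV ell V, (if ((i k : V) : U) * u₀ ∈ kerV ell V then c else 0) = c := by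
        intro k
        rw [if_pos]
        change (k : U) * u₀⁻¹ * u₀ ∈ kerV ell V
        rw [inv_mul_cancel_right]
        exact k.2
      rw [tsum_congr h4, ENNReal.tsum_const, ENat.card_eq_coe_natCard, ENat.toENNReal_coe]
      refine ENNReal.mul_inv_cancel ?_ (natCast_ne_top _)
      exact_mod_cast Nat.card_pos.ne'
    · intro u hu
      have h5 : (u : U) * u₀ ∈ kerV ell V := by
        by_contra h'
        rw [Function.mem_support, if_neg h'] at hu
        exact hu rfl
      exact ⟨⟨_, h5⟩, Subtype.ext (mul_inv_cancel_right _ _)⟩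
  · obtain ⟨R, hR⟩ := (ZSpan.fundamentalDomain_isBounded b).exists_norm_le
    refine ⟨R, fun s hs => hR s.val ?_⟩
    by_contra h'
    exact hs (Set.indicator_of_notMem h' _)

variable {H : Type*} [MulAction U H] [Countable H]

/-- **Existence of a weight on `H × (ι → ℝ)`.** -/
theorem exists_isWeight [MeasurableSpace H] [DiscreteMeasurableSpace H]
    (h : ∀ x : H, IsFull ell (stabilizer U x)) :
    ∃ w : H × Tor ell → ℝ≥0∞, IsWeight U w ∧
      ∀ x : H, ∃ R : ℝ, ∀ s, w (x, s) ≠ 0 → ‖s.val‖ ≤ R := by
  choose w hw R hR using fun x : H => (h x).exists_isWeight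
  refine ⟨orbWeight fun o => w o.out, isWeight_orbWeight fun o => hw _, fun x => ⟨R x, ?_⟩⟩
  intro s hs
  unfold orbWeight at hs
  by_cases h1 : (Quotient.mk (orbitRel U H) x).out = x
  · simp only [h1, if_true] at hs
    exact hR x s hs
  · simp only [h1, if_false] at hs
    exact absurd rfl hs

/-! ### averages -/

/-- every orbit is represented exactly once by `r` -/
structure IsReps {U X I : Type*} [Group U] [MulAction U X] (r : I → X) : Prop where
  surj : ∀ x, ∃ i, ∃ g : U, g • x = r i
  inj : ∀ i j, (∃ g : U, g • r i = r j) → i = j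

theorem isReps_out {U X : Type*} [Group U] [MulAction U X] :
    IsReps (U := U) (fun o : Quotient (orbitRel U X) => o.out) where
  surj x := by
    refine ⟨Quotient.mk _ x, ?_⟩
    have h1 : Quotient.mk (orbitRel U X) (Quotient.mk (orbitRel U X) x).out =
        Quotient.mk (orbitRel U X) x := Quotient.out_eq _
    obtain ⟨g, hg⟩ := Quotient.exact (s := orbitRel U X) h1
    exact ⟨g, hg⟩
  inj i j := by
    rintro ⟨g, hg⟩
    rw [← Quotient.out_eq i, ← Quotient.out_eq j]
    exact (Quotient.sound (s := orbitRel U X) ⟨g, hg⟩).symm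

theorem IsReps.injective {U X I : Type*} [Group U] [MulAction U X] {r : I → X}
    (hr : IsReps (U := U) r) : Function.Injective r :=
  fun i j h => hr.inj i j ⟨1, by rw [one_smul, h]⟩

/-- the unit weight of a trivial group -/
theorem isWeight_one {G Z : Type*} [Group G] [MeasurableSpace Z] [MulAction G Z]
    (h : ∀ g : G, g = 1) : IsWeight G fun _ : Z => 1 where
  meas := measurable_const
  sum_eq z := by
    have : Unique G := ⟨⟨1⟩, h⟩
    rw [tsum_fintype]
    simp

section Simple

variable {G Z X I : Type*} [Group G] [Countable G] [MeasurableSpace Z] [MulAction G Z]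
  [MeasurableConstSMul G Z] [MulAction G X] [Countable X] {μ : Measure Z}
  [SMulInvariantMeasure G Z μ] {w : Z → ℝ≥0∞} {r : I → X}

/-- unfolding for a free action, non-negative functions -/
theorem lunfold_free (hw : IsWeight G w) (hr : IsReps (U := G) r)
    (hfree : ∀ (g : G) (x : X), g • x = x → g = 1) {k : X → Z → ℝ≥0∞}
    (hk : ∀ x, Measurable (k x)) (hinv : ∀ (g : G) x z, k (g • x) (g • z) = k x z) :
    ∫⁻ z, ∑' x, k x z ∂μ.withDensity w = ∑' i, ∫⁻ z, k (r i) z ∂μ := by
  have hst : ∀ i, ∀ g : stabilizer G (r i), g = 1 := fun i g => Subtype.ext (hfree _ _ g.2)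
  rw [lunfold_reps (μ := μ) hw hr.surj hr.inj (wo := fun _ _ => 1)
    (fun i => isWeight_one (hst i)) hk hinv]
  refine tsum_congr fun i => ?_
  rw [show (fun _ : Z => (1 : ℝ≥0∞)) = 1 from rfl, withDensity_one]

/-- unfolding for a free action -/
theorem unfold_free (hw : IsWeight G w) (hr : IsReps (U := G) r)
    (hfree : ∀ (g : G) (x : X), g • x = x → g = 1) {k : X → Z → ℂ}
    (hk : ∀ x, Measurable (k x)) (hinv : ∀ (g : G) x z, k (g • x) (g • z) = k x z)
    (hfin : ∫⁻ z, ∑' x, ‖k x z‖ₑ ∂μ.withDensity w ≠ ∞) :
    ∫ z, ∑' x, k x z ∂μ.withDensity w = ∑' i, ∫ z, k (r i) z ∂μ := by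
  have hst : ∀ i, ∀ g : stabilizer G (r i), g = 1 := fun i g => Subtype.ext (hfree _ _ g.2)
  rw [unfold_reps (μ := μ) hw hr.surj hr.inj (wo := fun _ _ => 1)
    (fun i => isWeight_one (hst i)) hk hinv hfin]
  refine tsum_congr fun i => ?_
  rw [show (fun _ : Z => (1 : ℝ≥0∞)) = 1 from rfl, withDensity_one]

end Simple

section

variable {X : Type*} [MulAction U X] [Countable X] [Countable U]

variable [MeasurableSpace H] [DiscreteMeasurableSpace H] {I : Type*} {r : I → X}
  {β : H × Tor ell → ℝ≥0∞} {π : X → H} {a : H → ℂ} {k : X → Tor ell → ℂ}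

/-- the average of `h ↦ a h * ∑_{π x = h} k x s` -/
def avg (β : H × Tor ell → ℝ≥0∞) (θ : H → Tor ell → ℂ) : ℂ :=
  ∫ p, θ p.1 p.2 ∂(sumM H (volume : Measure (Tor ell))).withDensity β

theorem avg_congr {θ θ' : H → Tor ell → ℂ} (h : ∀ x s, θ x s = θ' x s) : avg β θ = avg β θ' := by
  unfold avg
  simp only [h]

theorem avg_const_mul (c : ℂ) (θ : H → Tor ell → ℂ) :
    avg β (fun x s => c * θ x s) = c * avg β θ := by
  unfold avg
  exact integral_const_mul c _

open Classical in
/-- **The average, non-negative functions** -/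
theorem laverage (hβ : IsWeight U β) (hr : IsReps (U := U) r)
    (hfree : ∀ (u : U) (x : X), u • x = x → u = 1) (hπ : ∀ (u : U) x, π (u • x) = u • π x)
    {a : H → ℝ≥0∞} {k : X → Tor ell → ℝ≥0∞}
    (ha : ∀ (u : U) x, a (u • x) = a x) (hk : ∀ x, Measurable (k x))
    (hinv : ∀ (u : U) x s, k (u • x) (u • s) = k x s) :
    ∫⁻ p, ∑' x, (if π x = p.1 then a p.1 * k x p.2 else 0)
      ∂(sumM H (volume : Measure (Tor ell))).withDensity β =
      ∑' i, a (π (r i)) * ∫⁻ s, k (r i) s := by
  have := measurableConstSMul_prod (G := U) (Z := Tor ell) (Δ := H)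
  have := smulInvariant_sumM (G := U) (Z := Tor ell) (Δ := H) (μ := volume)
  have hst : ∀ i, ∀ g : stabilizer U (r i), g = 1 := fun i g => Subtype.ext (hfree _ _ g.2)
  have key := lunfold_reps (μ := sumM H (volume : Measure (Tor ell))) hβ hr.surj hr.inj
    (wo := fun _ _ => 1) (fun i => isWeight_one (hst i))
    (F := fun x p => if π x = p.1 then a p.1 * k x p.2 else 0) ?_ ?_
  · rw [key]
    refine tsum_congr fun i => ?_
    rw [show (fun _ : H × Tor ell => (1 : ℝ≥0∞)) = 1 from rfl, withDensity_one, lintegral_sumM, tsum_eq_single (π (r i)), ← lintegral_const_mul _ (hk _)]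
    · simp only [if_true]
    · intro h hh
      simp only [if_neg fun e : π (r i) = h => hh e.symm, lintegral_zero]
    · refine measurable_from_prod_countable_right fun h => ?_
      by_cases e : π (r i) = h
      · simp only [e, if_true]
        exact (hk _).const_mul _
      · simp only [e, if_false]
        exact measurable_const
  · intro x
    refine measurable_from_prod_countable_right fun h => ?_
    by_cases e : π x = h
    · simp only [e, if_true]
      exact (hk _).const_mul _
    · simp only [e, if_false]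
      exact measurable_const
  · intro u x p
    have e : π (u • x) = (u • p).1 ↔ π x = p.1 := by
      rw [hπ]
      exact smul_left_cancel_iff u
    by_cases hx : π x = p.1
    · rw [if_pos (e.mpr hx), if_pos hx]
      change a (u • p.1) * k (u • x) (u • p.2) = _
      rw [ha, hinv]
    · rw [if_neg fun h => hx (e.mp h), if_neg hx]

open Classical in
/-- **The average.** -/
theorem average (hβ : IsWeight U β) (hr : IsReps (U := U) r)
    (hfree : ∀ (u : U) (x : X), u • x = x → u = 1) (hπ : ∀ (u : U) x, π (u • x) = u • π x)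
    (ha : ∀ (u : U) x, a (u • x) = a x) (hk : ∀ x, Measurable (k x))
    (hinv : ∀ (u : U) x s, k (u • x) (u • s) = k x s)
    (hfin : ∑' i, ‖a (π (r i))‖ₑ * ∫⁻ s, ‖k (r i) s‖ₑ ≠ ∞) :
    avg β (fun h s => a h * ∑' x, if π x = h then k x s else 0) =
      ∑' i, a (π (r i)) * ∫ s, k (r i) s := by
  have := measurableConstSMul_prod (G := U) (Z := Tor ell) (Δ := H)
  have := smulInvariant_sumM (G := U) (Z := Tor ell) (Δ := H) (μ := volume)
  have hst : ∀ i, ∀ g : stabilizer U (r i), g = 1 := fun i g => Subtype.ext (hfree _ _ g.2)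
  have hF : ∀ x, Measurable fun p : H × Tor ell => if π x = p.1 then a p.1 * k x p.2 else 0 := by
    intro x
    refine measurable_from_prod_countable_right fun h => ?_
    by_cases e : π x = h
    · simp only [e, if_true]
      exact (hk _).const_mul _
    · simp only [e, if_false]
      exact measurable_const
  have key := unfold_reps (μ := sumM H (volume : Measure (Tor ell))) hβ hr.surj hr.inj
    (wo := fun _ _ => 1) (fun i => isWeight_one (hst i))
    (F := fun x p => if π x = p.1 then a p.1 * k x p.2 else 0) hF ?_ ?_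
  · have e1 : avg β (fun h s => a h * ∑' x, if π x = h then k x s else 0) =
        ∫ p, ∑' x, (if π x = p.1 then a p.1 * k x p.2 else 0)
          ∂(sumM H (volume : Measure (Tor ell))).withDensity β := by
      unfold avg
      refine integral_congr_ae (Filter.Eventually.of_forall fun p => ?_)
      simp only
      rw [← tsum_mul_left]
      refine tsum_congr fun x => ?_
      rw [mul_ite, mul_zero]
    rw [e1, key]
    refine tsum_congr fun i => ?_
    rw [show (fun _ : H × Tor ell => (1 : ℝ≥0∞)) = 1 from rfl, withDensity_one]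
    by_cases hint : Integrable (fun p : H × Tor ell =>
        if π (r i) = p.1 then a p.1 * k (r i) p.2 else 0) (sumM H volume)
    · rw [sumM, integral_sum_measure hint, tsum_eq_single (π (r i)), ← integral_const_mul,
        integral_map measurable_prodMk_left.aemeasurable (hF _).aestronglyMeasurable]
      · simp only [if_true]
      · intro h hh
        rw [integral_map measurable_prodMk_left.aemeasurable (hF _).aestronglyMeasurable]
        simp only [if_neg fun e : π (r i) = h => hh e.symm, integral_zero]
    · exfalso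
      refine hint ⟨(hF _).aestronglyMeasurable, ?_⟩
      rw [HasFiniteIntegral, lintegral_sumM _ (hF _).enorm, tsum_eq_single (π (r i))]
      · simp only [if_true, enorm_mul]
        rw [lintegral_const_mul _ (hk _).enorm]
        exact (ENNReal.ne_top_of_tsum_ne_top hfin i).lt_top
      · intro h hh
        simp only [if_neg fun e : π (r i) = h => hh e.symm, enorm_zero, lintegral_zero]
  · intro u x p
    have e : π (u • x) = (u • p).1 ↔ π x = p.1 := by
      rw [hπ]
      exact smul_left_cancel_iff u
    by_cases hx : π x = p.1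
    · rw [if_pos (e.mpr hx), if_pos hx]
      change a (u • p.1) * k (u • x) (u • p.2) = _
      rw [ha, hinv]
    · rw [if_neg fun h => hx (e.mp h), if_neg hx]
  · have hl := laverage (a := fun h => ‖a h‖ₑ) (k := fun x s => ‖k x s‖ₑ) hβ hr hfree hπ
      (fun u x => by simp only [ha]) (fun x => (hk x).enorm) (fun u x s => by simp only [hinv])
    have e2 : ∀ p : H × Tor ell, ∑' x, ‖if π x = p.1 then a p.1 * k x p.2 else 0‖ₑ =
        ∑' x, if π x = p.1 then ‖a p.1‖ₑ * ‖k x p.2‖ₑ else 0 := by
      intro p
      refine tsum_congr fun x => ?_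
      by_cases e : π x = p.1
      · rw [if_pos e, if_pos e, enorm_mul]
      · rw [if_neg e, if_neg e, enorm_zero]
    simp only [e2]
    rw [hl]
    exact hfin

end

end Fermat.Agent.LT.Torus

end
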