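import Mathlib

/-!
# Relative units of norm one in a quadratic extension of totally complex number fields

`E/L` quadratic, both totally complex, `c` the non-trivial automorphism of `E/L`.  For every
infinite place `w` of `L` we fix a complex embedding `φ w` of `E` above `w.embedding`.  The
logarithms `log ‖φ w u‖` of the units of norm one (and of any subgroup of finite index) form a full
lattice in `InfinitePlace L → ℝ`.
-/

set_option autoImplicit false

noncomputable section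

open NumberField NumberField.InfinitePlace NumberField.Units NumberField.Units.dirichletUnitTheorem

namespace Fermat.Agent.LT.Torus

set_option linter.unusedSectionVars false

variable {L E : Type*} [Field L] [NumberField L] [Field E] [NumberField E] [Algebra L E]

/-- A quadratic extension `E/L` of totally complex number fields, its involution, and a choice of
embeddings of `E` above the places of `L`. -/
structure Quad (L E : Type*) [Field L] [NumberField L] [Field E] [NumberField E] [Algebra L E] where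
  /-- the non-trivial automorphism -/
  c : E ≃ₐ[L] E
  c_ne : c ≠ 1
  aut : ∀ g : E ≃ₐ[L] E, g = 1 ∨ g = c
  /-- embeddings above the places of `L` -/
  φ : InfinitePlace L → (E →+* ℂ)
  φ_comp : ∀ w, (φ w).comp (algebraMap L E) = w.embedding

/-- every quadratic extension carries such data -/
theorem nonempty_quad (h : Module.finrank L E = 2) : Nonempty (Quad L E) := by
  have hq : Algebra.IsQuadraticExtension L E := ⟨h⟩
  have hgal : IsGalois L E := inferInstance
  have hcard : Nat.card (E ≃ₐ[L] E) = 2 := by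
    rw [IsGalois.card_aut_eq_finrank, h]
  have : Finite (E ≃ₐ[L] E) := Nat.finite_of_card_ne_zero (by rw [hcard]; norm_num)
  have hnt : Nontrivial (E ≃ₐ[L] E) := by
    rw [← Finite.one_lt_card_iff_nontrivial, hcard]; norm_num
  obtain ⟨c, hc⟩ := exists_ne (1 : E ≃ₐ[L] E)
  have hφ : ∀ w : InfinitePlace L, ∃ ψ : E →+* ℂ, ψ.comp (algebraMap L E) = w.embedding := by
    intro w
    let _ : Algebra L ℂ := w.embedding.toAlgebra
    let ψ : E →ₐ[L] ℂ := IsAlgClosed.lift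
    exact ⟨ψ.toRingHom, by ext x; exact ψ.commutes x⟩
  choose φ hφ using hφ
  refine ⟨⟨c, hc, fun g => ?_, φ, hφ⟩⟩
  classical
  by_contra hcon
  push Not at hcon
  have h3 : ({1, c, g} : Finset (E ≃ₐ[L] E)).card = 3 := by
    rw [Finset.card_eq_three]
    exact ⟨1, c, g, hc.symm, hcon.1.symm, hcon.2.symm, rfl⟩
  have : Fintype (E ≃ₐ[L] E) := Fintype.ofFinite _
  have h4 := Finset.card_le_univ ({1, c, g} : Finset (E ≃ₐ[L] E))
  rw [h3, ← Nat.card_eq_fintype_card, hcard] at h4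
  omega

namespace Quad

variable (Q : Quad L E)

theorem c_c (x : E) : Q.c (Q.c x) = x := by
  rcases Q.aut (Q.c * Q.c) with h | h
  · exact DFunLike.congr_fun h x
  · exact absurd (mul_left_cancel (h.trans (mul_one Q.c).symm)) Q.c_ne

theorem isGalois (h : Module.finrank L E = 2) : IsGalois L E := by
  have hq : Algebra.IsQuadraticExtension L E := ⟨h⟩
  infer_instance

/-- the conjugate embedding -/
def φ' (w : InfinitePlace L) : E →+* ℂ := (Q.φ w).comp (Q.c : E →+* E)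

@[simp] theorem φ'_apply (w : InfinitePlace L) (x : E) : Q.φ' w x = Q.φ w (Q.c x) := rfl

theorem φ'_comp (w : InfinitePlace L) : (Q.φ' w).comp (algebraMap L E) = w.embedding := by
  ext x
  rw [RingHom.comp_apply, φ'_apply, Q.c.commutes, ← Q.φ_comp w]
  rfl

/-- the two places above `w` -/
def P : InfinitePlace L ⊕ InfinitePlace L → InfinitePlace E
  | Sum.inl w => InfinitePlace.mk (Q.φ w)
  | Sum.inr w => InfinitePlace.mk (Q.φ' w)

theorem conj_comp (ψ : E →+* ℂ) : (ComplexEmbedding.conjugate ψ).comp (algebraMap L E) =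
    ComplexEmbedding.conjugate (ψ.comp (algebraMap L E)) := rfl

theorem embedding_inj {w w' : InfinitePlace L}
    (h : w.embedding = w'.embedding ∨ ComplexEmbedding.conjugate w.embedding = w'.embedding) :
    w = w' := by
  rw [← mk_embedding w, ← mk_embedding w']
  exact mk_eq_iff.mpr h

theorem conj_ne [IsTotallyComplex L] (w : InfinitePlace L) :
    ComplexEmbedding.conjugate w.embedding ≠ w.embedding := by
  have h := IsTotallyComplex.isComplex w
  rw [isComplex_iff] at h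
  exact fun h' => h h'

theorem exists_ne : ∃ x, Q.c x ≠ x := by
  by_contra hcon
  push Not at hcon
  exact Q.c_ne (AlgEquiv.ext hcon)

theorem φ_ne_φ' (w : InfinitePlace L) : Q.φ w ≠ Q.φ' w := by
  intro h
  obtain ⟨x, hx⟩ := Q.exists_ne
  exact hx ((Q.φ w).injective (RingHom.congr_fun h x)).symm

theorem P_injective [IsTotallyComplex L] : Function.Injective Q.P := by
  have key : ∀ {ψ ψ' : E →+* ℂ} {w w' : InfinitePlace L}, ψ.comp (algebraMap L E) = w.embedding →
      ψ'.comp (algebraMap L E) = w'.embedding → InfinitePlace.mk ψ = InfinitePlace.mk ψ' → w = w' ∧ ψ = ψ' := by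
    intro ψ ψ' w w' h1 h2 h
    rcases mk_eq_iff.mp h with h3 | h3
    · have h4 : w = w' := embedding_inj (Or.inl (by rw [← h1, ← h2, h3]))
      exact ⟨h4, h3⟩
    · have h4 : ComplexEmbedding.conjugate w.embedding = w'.embedding := by
        rw [← h1, ← conj_comp, h3, h2]
      have h5 : w = w' := embedding_inj (Or.inr h4)
      rw [← h5] at h4
      exact absurd h4 (conj_ne w)
  rintro (w | w) (w' | w') h
  · rw [(key (Q.φ_comp w) (Q.φ_comp w') h).1]
  · obtain ⟨h1, h2⟩ := key (Q.φ_comp w) (Q.φ'_comp w') h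
    rw [← h1] at h2
    exact absurd h2 (Q.φ_ne_φ' w)
  · obtain ⟨h1, h2⟩ := key (Q.φ'_comp w) (Q.φ_comp w') h
    rw [← h1] at h2
    exact absurd h2.symm (Q.φ_ne_φ' w)
  · rw [(key (Q.φ'_comp w) (Q.φ'_comp w') h).1]

theorem P_surjective (h2 : Module.finrank L E = 2) : Function.Surjective Q.P := by
  intro v
  have hgal := isGalois (L := L) (E := E) h2
  have key : ∀ {ψ : E →+* ℂ} {w : InfinitePlace L}, ψ.comp (algebraMap L E) = w.embedding →
      ψ = Q.φ w ∨ ψ = Q.φ' w := by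
    intro ψ w h
    obtain ⟨σ, hσ⟩ := NumberField.ComplexEmbedding.exists_comp_symm_eq_of_comp_eq (Q.φ w) ψ
      (by rw [Q.φ_comp w, h])
    rcases Q.aut σ.symm with h1 | h1
    · left
      rw [← hσ]
      ext x
      exact congrArg (Q.φ w) (DFunLike.congr_fun h1 x)
    · right
      rw [← hσ]
      ext x
      exact congrArg (Q.φ w) (DFunLike.congr_fun h1 x)
  set w : InfinitePlace L := InfinitePlace.mk (v.embedding.comp (algebraMap L E)) with hw
  have h3 : InfinitePlace.mk w.embedding = InfinitePlace.mk (v.embedding.comp (algebraMap L E)) := by rw [mk_embedding]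
  rcases mk_eq_iff.mp h3 with h4 | h4
  · rcases key h4.symm with h5 | h5
    · exact ⟨Sum.inl w, by rw [P, ← h5, mk_embedding]⟩
    · exact ⟨Sum.inr w, by rw [P, ← h5, mk_embedding]⟩
  · have h6 : (ComplexEmbedding.conjugate v.embedding).comp (algebraMap L E) = w.embedding := by
      rw [conj_comp, ← h4]
      ext x
      simp
    rcases key h6 with h5 | h5
    · exact ⟨Sum.inl w, by rw [P, ← h5, mk_conjugate_eq, mk_embedding]⟩
    · exact ⟨Sum.inr w, by rw [P, ← h5, mk_conjugate_eq, mk_embedding]⟩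

/-- the places of `E` -/
def places [IsTotallyComplex L] (h2 : Module.finrank L E = 2) :
    InfinitePlace L ⊕ InfinitePlace L ≃ InfinitePlace E :=
  Equiv.ofBijective Q.P ⟨Q.P_injective, Q.P_surjective h2⟩

/-- the group of units of norm one -/
def U1 : Subgroup (𝓞 E)ˣ where
  carrier := {u | ((u : 𝓞 E) : E) * Q.c ((u : 𝓞 E) : E) = 1}
  one_mem' := by simp
  mul_mem' := by
    intro a b ha hb
    simp only [Set.mem_ofPred_eq, Units.val_mul, map_mul] at *
    linear_combination ((b : 𝓞 E) : E) * Q.c ((b : 𝓞 E) : E) * ha + hb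
  inv_mem' := by
    intro a ha
    simp only [Set.mem_ofPred_eq] at *
    have h1 : (((a⁻¹ : (𝓞 E)ˣ) : 𝓞 E) : E) * ((a : 𝓞 E) : E) = 1 := by
      rw [← map_mul, ← Units.val_mul, inv_mul_cancel]; simp
    have h2 : Q.c (((a⁻¹ : (𝓞 E)ˣ) : 𝓞 E) : E) * Q.c ((a : 𝓞 E) : E) = 1 := by
      rw [← map_mul, h1, map_one]
    calc _ = ((((a⁻¹ : (𝓞 E)ˣ) : 𝓞 E) : E) * Q.c (((a⁻¹ : (𝓞 E)ˣ) : 𝓞 E) : E)) *
          (((a : 𝓞 E) : E) * Q.c ((a : 𝓞 E) : E)) := by rw [ha, mul_one]
      _ = ((((a⁻¹ : (𝓞 E)ˣ) : 𝓞 E) : E) * ((a : 𝓞 E) : E)) *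
          (Q.c (((a⁻¹ : (𝓞 E)ˣ) : 𝓞 E) : E) * Q.c ((a : 𝓞 E) : E)) := by ring
      _ = 1 := by rw [h1, h2, mul_one]

theorem mem_U1 {u : (𝓞 E)ˣ} : u ∈ Q.U1 ↔ ((u : 𝓞 E) : E) * Q.c ((u : 𝓞 E) : E) = 1 := Iff.rfl

/-- the logarithmic map -/
def ell : Additive (𝓞 E)ˣ →+ (InfinitePlace L → ℝ) where
  toFun u w := Real.log ‖Q.φ w ((u.toMul : 𝓞 E) : E)‖
  map_zero' := by
    ext w
    simp
  map_add' u v := by
    ext w
    have hu : Q.φ w ((u.toMul : 𝓞 E) : E) ≠ 0 := by simp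
    have hv : Q.φ w ((v.toMul : 𝓞 E) : E) ≠ 0 := by simp
    simp only [toMul_add, Units.val_mul, map_mul, norm_mul, Pi.add_apply]
    rw [Real.log_mul (norm_ne_zero_iff.mpr hu) (norm_ne_zero_iff.mpr hv)]

theorem ell_apply (u : (𝓞 E)ˣ) (w : InfinitePlace L) :
    Q.ell (Additive.ofMul u) w = Real.log ‖Q.φ w ((u : 𝓞 E) : E)‖ := rfl

theorem exp_ell (u : (𝓞 E)ˣ) (w : InfinitePlace L) :
    Real.exp (Q.ell (Additive.ofMul u) w) = ‖Q.φ w ((u : 𝓞 E) : E)‖ := by
  rw [ell_apply, Real.exp_log (norm_pos_iff.mpr (by simp))]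

theorem norm_φ'_of_mem {u : (𝓞 E)ˣ} (hu : u ∈ Q.U1) (w : InfinitePlace L) :
    ‖Q.φ' w ((u : 𝓞 E) : E)‖ = ‖Q.φ w ((u : 𝓞 E) : E)‖⁻¹ := by
  have h := congrArg (fun x => ‖Q.φ w x‖) (Q.mem_U1.mp hu)
  simp only [map_mul, norm_mul, map_one, norm_one] at h
  rw [φ'_apply]
  exact eq_inv_of_mul_eq_one_right h

/-- the conjugate unit -/
def cU (u : (𝓞 E)ˣ) : (𝓞 E)ˣ :=
  Units.map (RingOfIntegers.mapRingEquiv (Q.c : E ≃+* E) : 𝓞 E →* 𝓞 E) u

theorem coe_cU (u : (𝓞 E)ˣ) : ((Q.cU u : 𝓞 E) : E) = Q.c ((u : 𝓞 E) : E) := rfl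

theorem div_cU_mem (u : (𝓞 E)ˣ) : u * (Q.cU u)⁻¹ ∈ Q.U1 := by
  rw [mem_U1]
  have h1 : ((Q.cU u : 𝓞 E) : E) * ((((Q.cU u)⁻¹ : (𝓞 E)ˣ) : 𝓞 E) : E) = 1 := by
    rw [← map_mul, ← Units.val_mul, mul_inv_cancel]; simp
  rw [coe_cU] at h1
  have h2 : ((u : 𝓞 E) : E) * Q.c ((((Q.cU u)⁻¹ : (𝓞 E)ˣ) : 𝓞 E) : E) = 1 := by
    have := congrArg Q.c h1
    rwa [map_mul, Q.c_c, map_one] at this
  have h3 : (((u * (Q.cU u)⁻¹ : (𝓞 E)ˣ) : 𝓞 E) : E) =
      ((u : 𝓞 E) : E) * ((((Q.cU u)⁻¹ : (𝓞 E)ˣ) : 𝓞 E) : E) := by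
    rw [← map_mul, ← Units.val_mul]
  rw [h3, map_mul]
  linear_combination (Q.c ((u : 𝓞 E) : E) * ((((Q.cU u)⁻¹ : (𝓞 E)ˣ) : 𝓞 E) : E)) * h2 + h1

open scoped Classical in
/-- extension by the omitted coordinate -/
def ext₀ (f : logSpace E) (v : InfinitePlace E) : ℝ :=
  if h : v ≠ w₀ then f ⟨v, h⟩ else -∑ v', f v'

open scoped Classical in
theorem ext₀_logEmbedding (u : (𝓞 E)ˣ) (v : InfinitePlace E) :
    ext₀ (logEmbedding E (Additive.ofMul u)) v = mult v * Real.log (v ((u : 𝓞 E) : E)) := by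
  rw [ext₀]
  split_ifs with h
  · rfl
  · push Not at h
    subst h
    rw [sum_logEmbedding_component]
    simp

open scoped Classical in
/-- the linear map from the log space of `E` to that of the norm one torus -/
def T : logSpace E →ₗ[ℝ] (InfinitePlace L → ℝ) where
  toFun f w := (ext₀ f (Q.P (Sum.inl w)) - ext₀ f (Q.P (Sum.inr w))) / 2
  map_add' f g := by
    have h : ∀ v, ext₀ (f + g) v = ext₀ f v + ext₀ g v := by
      intro v
      simp only [ext₀]
      split_ifs with h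
      · rfl
      · simp only [Pi.add_apply, Finset.sum_add_distrib]; ring
    ext w
    simp only [h, Pi.add_apply]
    ring
  map_smul' r f := by
    have h : ∀ v, ext₀ (r • f) v = r * ext₀ f v := by
      intro v
      simp only [ext₀]
      split_ifs with h
      · rfl
      · simp only [Pi.smul_apply, smul_eq_mul, ← Finset.mul_sum]; ring
    ext w
    simp only [h, Pi.smul_apply, RingHom.id_apply, smul_eq_mul]
    ring

theorem isComplex_of_comp [IsTotallyComplex L] {ψ : E →+* ℂ} {w : InfinitePlace L}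
    (h : ψ.comp (algebraMap L E) = w.embedding) : (InfinitePlace.mk ψ).IsComplex := by
  rw [← not_isReal_iff_isComplex, isReal_mk_iff]
  intro hr
  apply conj_ne w
  rw [← h, ← conj_comp]
  exact congrArg (fun χ : E →+* ℂ => χ.comp (algebraMap L E)) hr

theorem T_logEmbedding [IsTotallyComplex L] (u : (𝓞 E)ˣ) :
    Q.T (logEmbedding E (Additive.ofMul u)) = Q.ell (Additive.ofMul (u * (Q.cU u)⁻¹)) := by
  ext w
  have h1 : mult (InfinitePlace.mk (Q.φ w)) = 2 := by
    have h := isComplex_of_comp (Q.φ_comp w)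
    rw [mult, if_neg (not_isReal_iff_isComplex.mpr h)]
  have h2 : mult (InfinitePlace.mk (Q.φ' w)) = 2 := by
    have h := isComplex_of_comp (Q.φ'_comp w)
    rw [mult, if_neg (not_isReal_iff_isComplex.mpr h)]
  have h3 : Q.T (logEmbedding E (Additive.ofMul u)) w =
      (ext₀ (logEmbedding E (Additive.ofMul u)) (InfinitePlace.mk (Q.φ w)) -
        ext₀ (logEmbedding E (Additive.ofMul u)) (InfinitePlace.mk (Q.φ' w))) / 2 := rfl
  rw [h3, ext₀_logEmbedding, ext₀_logEmbedding, h1, h2, ofMul_mul, map_add, ofMul_inv, map_neg,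
    Pi.add_apply, Pi.neg_apply, ell_apply, ell_apply, coe_cU, InfinitePlace.apply,
    InfinitePlace.apply, φ'_apply]
  push_cast
  ring

theorem T_surjective [IsTotallyComplex L] (h2 : Module.finrank L E = 2) :
    Function.Surjective Q.T := by
  classical
  intro b
  let g : InfinitePlace E → ℝ := fun v => Sum.elim b (-b) ((Q.places h2).symm v)
  have hg : ∀ s, g (Q.P s) = Sum.elim b (-b) s := by
    intro s
    change Sum.elim b (-b) ((Q.places h2).symm (Q.places h2 s)) = _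
    rw [Equiv.symm_apply_apply]
  have hsum : ∑ v, g v = 0 := by
    rw [← (Q.places h2).sum_comp]
    change ∑ s, g (Q.P s) = 0
    simp only [hg]
    rw [Fintype.sum_sum_type]
    simp
  refine ⟨fun v => g v, ?_⟩
  have hext : ∀ v, ext₀ (fun v : {v : InfinitePlace E // v ≠ w₀} => g v) v = g v := by
    intro v
    rw [ext₀]
    split_ifs with h
    · rfl
    · push Not at h
      subst h
      rw [Fintype.sum_eq_add_sum_subtype_ne _ w₀] at hsum
      linarith
  ext w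
  change (ext₀ (fun v : {v : InfinitePlace E // v ≠ w₀} => g v) (Q.P (Sum.inl w)) -
    ext₀ (fun v : {v : InfinitePlace E // v ≠ w₀} => g v) (Q.P (Sum.inr w))) / 2 = b w
  rw [hext, hext, hg, hg]
  simp

/-- the image of a group of units -/
def lat (V : Subgroup (𝓞 E)ˣ) : Submodule ℤ (InfinitePlace L → ℝ) :=
  (V.toAddSubgroup.map Q.ell).toIntSubmodule

theorem mem_lat {V : Subgroup (𝓞 E)ˣ} {x : InfinitePlace L → ℝ} :
    x ∈ Q.lat V ↔ ∃ u ∈ V, Q.ell (Additive.ofMul u) = x := by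
  constructor
  · rintro ⟨u, hu, rfl⟩
    exact ⟨u.toMul, hu, rfl⟩
  · rintro ⟨u, hu, rfl⟩
    exact ⟨Additive.ofMul u, hu, rfl⟩

/-- `V` is a subgroup of the norm one units which contains a power of each of them -/
structure IsBig (V : Subgroup (𝓞 E)ˣ) : Prop where
  le : V ≤ Q.U1
  pow_mem : ∀ u ∈ Q.U1, ∃ m : ℕ, 0 < m ∧ u ^ m ∈ V

theorem span_lat [IsTotallyComplex L] (h2 : Module.finrank L E = 2) {V : Subgroup (𝓞 E)ˣ}
    (hV : Q.IsBig V) : Submodule.span ℝ (Q.lat V : Set (InfinitePlace L → ℝ)) = ⊤ := by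
  have h3 : ∀ u ∈ Q.U1, Q.ell (Additive.ofMul u) ∈
      Submodule.span ℝ (Q.lat V : Set (InfinitePlace L → ℝ)) := by
    intro u hu
    obtain ⟨m, hm, hmV⟩ := hV.pow_mem u hu
    have h4 : Q.ell (Additive.ofMul (u ^ m)) = (m : ℝ) • Q.ell (Additive.ofMul u) := by
      rw [ofMul_pow, map_nsmul]
      ext w
      simp
    have h5 : Q.ell (Additive.ofMul u) = (m : ℝ)⁻¹ • Q.ell (Additive.ofMul (u ^ m)) := by
      rw [h4, smul_smul, inv_mul_cancel₀ (by exact_mod_cast hm.ne'), one_smul]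
    rw [h5]
    exact Submodule.smul_mem _ _ (Submodule.subset_span (Q.mem_lat.mpr ⟨_, hmV, rfl⟩))
  rw [eq_top_iff]
  intro x _
  obtain ⟨f, rfl⟩ := Q.T_surjective h2 x
  have h6 : f ∈ Submodule.span ℝ (unitLattice E : Set (logSpace E)) := by
    rw [unitLattice_span_eq_top]; trivial
  have h7 : Q.T f ∈ (Submodule.span ℝ (unitLattice E : Set (logSpace E))).map Q.T := ⟨f, h6, rfl⟩
  rw [Submodule.map_span] at h7
  refine Submodule.span_le.mpr ?_ h7
  rintro _ ⟨_, ⟨u, -, rfl⟩, rfl⟩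
  have h8 := Q.T_logEmbedding u.toMul
  change Q.T (logEmbedding E u) ∈ _
  rw [ofMul_toMul] at h8
  rw [h8]
  exact h3 _ (Q.div_cU_mem _)

theorem finite_of_ell_le [IsTotallyComplex L] (h2 : Module.finrank L E = 2) (r : ℝ) :
    {u : (𝓞 E)ˣ | u ∈ Q.U1 ∧ ∀ w, |Q.ell (Additive.ofMul u) w| ≤ r}.Finite := by
  have h3 : {u : (𝓞 E)ˣ | IsIntegral ℤ ((u : 𝓞 E) : E) ∧
      ∀ ψ : E →+* ℂ, ‖ψ ((u : 𝓞 E) : E)‖ ≤ Real.exp r}.Finite := by
    refine Set.Finite.of_finite_image ?_ (coe_injective E).injOn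
    refine (Embeddings.finite_of_norm_le E ℂ (Real.exp r)).subset ?_
    rintro _ ⟨x, ⟨h_int, h_le⟩, rfl⟩
    exact ⟨h_int, h_le⟩
  refine h3.subset ?_
  rintro u ⟨hu, hle⟩
  refine ⟨u.val.prop, (InfinitePlace.le_iff_le _ _).mp fun v => ?_⟩
  have h4 : ∀ w, ‖Q.φ w ((u : 𝓞 E) : E)‖ ≤ Real.exp r := by
    intro w
    rw [← Q.exp_ell u w]
    exact Real.exp_le_exp.mpr ((le_abs_self _).trans (hle w))
  have h5 : ∀ w, ‖Q.φ' w ((u : 𝓞 E) : E)‖ ≤ Real.exp r := by
    intro w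
    rw [Q.norm_φ'_of_mem hu, ← Q.exp_ell u w, ← Real.exp_neg]
    exact Real.exp_le_exp.mpr ((neg_le_abs _).trans (hle w))
  obtain ⟨s, rfl⟩ := Q.P_surjective h2 v
  rcases s with w | w
  · exact h4 w
  · exact h5 w

theorem lat_inter_ball_finite [IsTotallyComplex L] (h2 : Module.finrank L E = 2)
    {V : Subgroup (𝓞 E)ˣ} (hV : V ≤ Q.U1) (r : ℝ) :
    ((Q.lat V : Set (InfinitePlace L → ℝ)) ∩ Metric.closedBall 0 r).Finite := by
  refine ((Q.finite_of_ell_le h2 r).image (fun u => Q.ell (Additive.ofMul u))).subset ?_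
  rintro x ⟨hx, hr⟩
  obtain ⟨u, hu, rfl⟩ := Q.mem_lat.mp hx
  refine ⟨u, ⟨hV hu, fun w => ?_⟩, rfl⟩
  rw [mem_closedBall_zero_iff] at hr
  exact (norm_le_pi_norm _ w).trans hr

theorem discrete_lat [IsTotallyComplex L] (h2 : Module.finrank L E = 2)
    {V : Subgroup (𝓞 E)ˣ} (hV : V ≤ Q.U1) : DiscreteTopology (Q.lat V) := by
  refine discreteTopology_of_isOpen_singleton_zero ?_
  refine isOpen_singleton_of_finite_mem_nhds 0 (s := Metric.closedBall 0 1) ?_ ?_
  · exact Metric.closedBall_mem_nhds _ (by simp)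
  · refine Set.Finite.of_finite_image ?_ (Set.injOn_of_injective Subtype.val_injective)
    refine (Q.lat_inter_ball_finite h2 hV 1).subset ?_
    rintro _ ⟨x, hx, rfl⟩
    exact ⟨x.2, hx⟩

theorem isZLattice_lat [IsTotallyComplex L] (h2 : Module.finrank L E = 2)
    {V : Subgroup (𝓞 E)ˣ} (hV : Q.IsBig V) :
    haveI := Q.discrete_lat h2 hV.le
    IsZLattice ℝ (Q.lat V) :=
  haveI := Q.discrete_lat h2 hV.le
  ⟨Q.span_lat h2 hV⟩

/-- the units of `V` with trivial logarithm: a finite group -/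
theorem finite_ker [IsTotallyComplex L] (h2 : Module.finrank L E = 2) {V : Subgroup (𝓞 E)ˣ}
    (hV : V ≤ Q.U1) : {u : V | Q.ell (Additive.ofMul (u : (𝓞 E)ˣ)) = 0}.Finite := by
  refine Set.Finite.of_finite_image ?_ (Set.injOn_of_injective Subtype.val_injective)
  refine (Q.finite_of_ell_le h2 0).subset ?_
  rintro _ ⟨u, hu, rfl⟩
  refine ⟨hV u.2, fun w => ?_⟩
  have := congrFun (show Q.ell (Additive.ofMul (u : (𝓞 E)ˣ)) = 0 from hu) w
  rw [this]
  simp

/-- the principal congruence subgroups of the group of norm one units -/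
def UI (I : Ideal (𝓞 E)) : Subgroup (𝓞 E)ˣ :=
  Q.U1 ⊓ (Units.map (Ideal.Quotient.mk I : 𝓞 E →* 𝓞 E ⧸ I)).ker

theorem mem_UI {I : Ideal (𝓞 E)} {u : (𝓞 E)ˣ} : u ∈ Q.UI I ↔ u ∈ Q.U1 ∧ (u : 𝓞 E) - 1 ∈ I := by
  rw [UI, Subgroup.mem_inf, MonoidHom.mem_ker, ← Ideal.Quotient.eq, Units.ext_iff]
  simp

theorem isBig_UI {I : Ideal (𝓞 E)} (hI : I ≠ ⊥) : Q.IsBig (Q.UI I) := by
  refine ⟨inf_le_left, fun u hu => ?_⟩
  have hfin : Finite (𝓞 E ⧸ I) := Ideal.finiteQuotientOfFreeOfNeBot I hI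
  have : Finite (𝓞 E ⧸ I)ˣ := inferInstance
  refine ⟨Nat.card (𝓞 E ⧸ I)ˣ, Nat.card_pos, ?_⟩
  refine ⟨pow_mem hu _, ?_⟩
  change Units.map (Ideal.Quotient.mk I : 𝓞 E →* 𝓞 E ⧸ I) (u ^ Nat.card (𝓞 E ⧸ I)ˣ) = 1
  rw [map_pow, pow_card_eq_one']

end Quad

end Fermat.Agent.LT.Torus
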