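import Fermat.Agent.LT.Torus.Average
import Fermat.Agent.LT.Torus.Units
import Fermat.Agent.LT.WeilInf.Bessel
import Fermat.Agent.LT.WeilInf.Emb

/-!
# The torus average of a theta function

`E/F` quadratic, `F` totally complex.  `V` is a group of units of norm one of `𝓞 E` (of finite
index), `S` a subset of a lattice of `E`, stable under `V`, which does not contain `0`.

* `WB P ξ = ∏_w y_w e(2 Re(z_w ξ_w)) K₀(4π |ξ_w| y_w)`, `ξ ∈ F`;
* `theta P S s = ∑_{x ∈ S} G P (e^{2s}) x`;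
* `sum_WB_eq` : `∑_{x ∈ S/V} WB P (N x) = ∫_{V \ ℝⁿ} theta P S s ds`;
* `exists_bound_WB` : `∑_{x ∈ S/V} |WB P (N x)| ≤ C (∏ y_w) c^{-m}` when all `y_w ≥ c`.
-/

set_option autoImplicit false
set_option linter.unusedSectionVars false

noncomputable section

open MeasureTheory ENNReal MulAction NumberField Module
open scoped Real

namespace Fermat.Agent.LT.Torus

open Fermat.Agent.LT.WeilInf Fermat.Agent.LT.Poisson

theorem countable_numberField (E : Type*) [Field E] [NumberField E] : Countable E :=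
  (finBasis ℚ E).equivFun.toEquiv.countable_iff.mpr inferInstance

instance countable_units (E : Type*) [Field E] [NumberField E] : Countable (𝓞 E)ˣ := by
  have := countable_numberField E
  have h : Function.Injective fun u : (𝓞 E)ˣ => ((u : 𝓞 E) : E) :=
    NumberField.Units.coe_injective E
  exact h.countable

variable {F E : Type*} [Field F] [NumberField F] [Field E] [NumberField E] [Algebra F E]

/-- the Bessel term: `∏_w y_w e(2 Re(z_w ξ_w)) K₀(4π |ξ_w| y_w)` -/
def WB (P : InfinitePlace F → ℂ × ℝ) (ξ : F) : ℂ :=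
  ∏ w : InfinitePlace F, ((P w).2 * WeilInf.E (2 * ((P w).1 * w.embedding ξ).re) 0 *
    ((bkR 0 (4 * π * (P w).2 * ‖w.embedding ξ‖) / 2 : ℝ) : ℂ))

/-- its absolute value -/
def WBn (P : InfinitePlace F → ℂ × ℝ) (ξ : F) : ℝ :=
  ∏ w : InfinitePlace F, ((P w).2 * (bkR 0 (4 * π * (P w).2 * ‖w.embedding ξ‖) / 2))

theorem WB_eq (P : InfinitePlace F → ℂ × ℝ) (ξ : F) :
    WB P ξ = ∏ w : InfinitePlace F, ((P w).2 *
      WeilInf.E (2 * ((P w).1 * w.embedding ξ).re) 0 *
        besselK 0 (4 * π * (P w).2 * ‖w.embedding ξ‖)) := by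
  unfold WB
  refine Finset.prod_congr rfl fun w _ => ?_
  rw [← besselK_ofReal, Complex.ofReal_zero]

theorem norm_WB {P : InfinitePlace F → ℂ × ℝ} (hP : ∀ w, 0 < (P w).2) {ξ : F} (hξ : ξ ≠ 0) :
    ‖WB P ξ‖ = WBn P ξ := by
  unfold WB WBn
  rw [norm_prod]
  refine Finset.prod_congr rfl fun w _ => ?_
  have h1 : w.embedding ξ ≠ 0 := (map_ne_zero _).mpr hξ
  have h2 : 0 < bkR 0 (4 * π * (P w).2 * ‖w.embedding ξ‖) / 2 := by
    have := bkR_pos 0 (y := 4 * π * (P w).2 * ‖w.embedding ξ‖) (by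
      have := hP w
      have := norm_pos_iff.mpr h1
      positivity)
    linarith
  rw [norm_mul, norm_mul, norm_E, Complex.norm_real, Complex.norm_real,
    Real.norm_of_nonneg (hP w).le, Real.norm_of_nonneg h2.le]
  simp

namespace Quad

variable (Q : Quad F E)

theorem algebraMap_norm (h2 : finrank F E = 2) (x : E) :
    algebraMap F E (Algebra.norm F x) = x * Q.c x := by
  classical
  have := isGalois (L := F) (E := E) h2
  have : FiniteDimensional F E := Module.finite_of_finrank_eq_succ h2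
  rw [Algebra.norm_eq_prod_automorphisms]
  have hu : (Finset.univ : Finset (E ≃ₐ[F] E)) = {1, Q.c} := by
    ext g
    simp only [Finset.mem_univ, Finset.mem_insert, Finset.mem_singleton, true_iff]
    exact Q.aut g
  have hc : (1 : E ≃ₐ[F] E) ≠ Q.c := Q.c_ne.symm
  have h3 : (∏ σ : Gal(E/F), σ x) = ∏ σ ∈ ({1, Q.c} : Finset (E ≃ₐ[F] E)), σ x := by
    rw [← hu]
  rw [h3, Finset.prod_pair hc]
  rfl

theorem embedding_norm (h2 : finrank F E = 2) (w : InfinitePlace F) (x : E) :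
    w.embedding (Algebra.norm F x) = Q.φ w x * Q.φ w (Q.c x) := by
  rw [← map_mul, ← Q.algebraMap_norm h2, ← Q.φ_comp w]
  rfl

theorem norm_unit (h2 : finrank F E = 2) {u : (𝓞 E)ˣ} (hu : u ∈ Q.U1) :
    Algebra.norm F ((u : 𝓞 E) : E) = 1 := by
  apply (algebraMap F E).injective
  rw [Q.algebraMap_norm h2, map_one]
  exact Q.mem_U1.mp hu

/-- the point of `∏ (ℂ × ℂ)` attached to an element of `E` -/
def j : E →+ (InfinitePlace F → ℂ × ℂ) := jpair Q.φ (((Q.c : E ≃+* E)) : E →+* E)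

@[simp] theorem j_apply (x : E) (w : InfinitePlace F) : Q.j x w = (Q.φ w x, Q.φ w (Q.c x)) := rfl

theorem j_fst_ne {x : E} (hx : x ≠ 0) (w : InfinitePlace F) : (Q.j x w).1 ≠ 0 :=
  (map_ne_zero (Q.φ w)).mpr hx

theorem j_snd_ne {x : E} (hx : x ≠ 0) (w : InfinitePlace F) : (Q.j x w).2 ≠ 0 :=
  (map_ne_zero (Q.φ w)).mpr ((map_ne_zero Q.c).mpr hx)

/-- the theta kernel on `Tor` -/
def ker (P : InfinitePlace F → ℂ × ℝ) (x : E) (s : Tor Q.ell) : ℂ :=
  G P (fun w => Real.exp (2 * s.val w)) (Q.j x)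

theorem continuous_G_t (P : InfinitePlace F → ℂ × ℝ) (x : E) :
    Continuous fun s : InfinitePlace F → ℝ => G P (fun w => Real.exp (2 * s w)) (Q.j x) := by
  unfold G WeilInf.ker WeilInf.E
  have h : ∀ w : InfinitePlace F, Continuous fun s : InfinitePlace F → ℝ =>
      ‖(Q.j x w).2‖ ^ 2 / Real.exp (2 * s w) := by
    intro w
    refine Continuous.div continuous_const (by fun_prop) fun s => (Real.exp_pos _).ne'
  refine continuous_finsetProd _ fun w _ => ?_
  have := h w
  fun_prop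

theorem measurable_ker (P : InfinitePlace F → ℂ × ℝ) (x : E) : Measurable (Q.ker P x) :=
  (Q.continuous_G_t P x).measurable.comp Tor.measurable_val

/-- invariance of the kernel -/
theorem ker_smul (P : InfinitePlace F → ℂ × ℝ) {u : (𝓞 E)ˣ} (hu : u ∈ Q.U1) (x : E)
    (s : Tor Q.ell) : Q.ker P (((u : 𝓞 E) : E) * x) (u • s) = Q.ker P x s := by
  unfold ker G
  refine Finset.prod_congr rfl fun w => ?_
  intro _
  have e1 : (u • s).val w = s.val w - Q.ell (Additive.ofMul u) w := rfl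
  have hmul : Q.φ w ((u : 𝓞 E) : E) * Q.φ w (Q.c ((u : 𝓞 E) : E)) = 1 := by
    rw [← map_mul, Q.mem_U1.mp hu, map_one]
  set a := Q.φ w ((u : 𝓞 E) : E) with ha
  set b := Q.φ w (Q.c ((u : 𝓞 E) : E)) with hb
  have ha0 : a ≠ 0 := left_ne_zero_of_mul_eq_one hmul
  have han : 0 < ‖a‖ := norm_pos_iff.mpr ha0
  have hbn : ‖b‖ = ‖a‖⁻¹ := by
    have h1 : ‖a‖ * ‖b‖ = 1 := by rw [← norm_mul, hmul, norm_one]
    exact eq_inv_of_mul_eq_one_right h1
  have e2 : Real.exp (2 * (s.val w - Q.ell (Additive.ofMul u) w)) =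
      Real.exp (2 * s.val w) / ‖a‖ ^ 2 := by
    rw [mul_sub, Real.exp_sub]
    congr 1
    rw [← Nat.cast_two, Real.exp_nat_mul, Q.exp_ell]
  have e3 : Q.j (((u : 𝓞 E) : E) * x) w = (a * (Q.j x w).1, b * (Q.j x w).2) := by
    simp only [j_apply, map_mul, ha, hb]
  beta_reduce
  rw [e1, e2, e3]
  unfold WeilInf.ker
  congr 2
  · have e4 : (P w).1 * (a * (Q.j x w).1) * (b * (Q.j x w).2) =
        (P w).1 * (Q.j x w).1 * (Q.j x w).2 := by
      calc _ = (a * b) * ((P w).1 * (Q.j x w).1 * (Q.j x w).2) := by ring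
        _ = _ := by rw [hmul, one_mul]
    simp only [e4]
  · simp only [norm_mul, hbn]
    have := Real.exp_pos (2 * s.val w)
    field_simp

/-- the integral of the kernel -/
theorem integral_ker (h2 : finrank F E = 2) (P : InfinitePlace F → ℂ × ℝ) {x : E} (hx : x ≠ 0) :
    ∫ s, Q.ker P x s = WB P (Algebra.norm F x) := by
  have h1 : ∫ s, Q.ker P x s = ∫ s : InfinitePlace F → ℝ,
      G P (fun w => Real.exp (((2 : ℝ) • s) w)) (Q.j x) := rfl
  rw [h1, Measure.integral_comp_smul volume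
    (fun s : InfinitePlace F → ℝ => G P (fun w => Real.exp (s w)) (Q.j x)) 2,
    integral_G_exp P (Q.j_fst_ne hx) (Q.j_snd_ne hx), WB, Module.finrank_fintype_fun_eq_card,
    abs_of_pos (by positivity), Complex.real_smul, Complex.ofReal_inv, Complex.ofReal_pow,
    ← inv_pow, ← Finset.card_univ, ← Finset.prod_const, ← Finset.prod_mul_distrib]
  refine Finset.prod_congr rfl fun w _ => ?_
  rw [Q.embedding_norm h2 w x, j_apply]
  simp only [norm_mul, mul_assoc]
  push_cast
  ring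

theorem integrable_ker {P : InfinitePlace F → ℂ × ℝ} (hP : ∀ w, 0 < (P w).2) {x : E}
    (hx : x ≠ 0) : Integrable (Q.ker P x) := by
  have h := integrable_G_exp hP (Q.j_fst_ne hx) (Q.j_snd_ne hx)
  exact (integrable_comp_smul_iff volume
    (fun s : InfinitePlace F → ℝ => G P (fun w => Real.exp (s w)) (Q.j x))
    (two_ne_zero : (2 : ℝ) ≠ 0)).mpr h

theorem lintegral_ker (h2 : finrank F E = 2) {P : InfinitePlace F → ℂ × ℝ}
    (hP : ∀ w, 0 < (P w).2) {x : E} (hx : x ≠ 0) :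
    ∫⁻ s, ‖Q.ker P x s‖ₑ = ENNReal.ofReal (WBn P (Algebra.norm F x)) := by
  rw [← ofReal_integral_norm_eq_lintegral_enorm (Q.integrable_ker hP hx)]
  congr 1
  have h1 : ∫ s, ‖Q.ker P x s‖ = ∫ s : InfinitePlace F → ℝ,
      ‖G P (fun w => Real.exp (((2 : ℝ) • s) w)) (Q.j x)‖ := rfl
  rw [h1, Measure.integral_comp_smul volume
    (fun s : InfinitePlace F → ℝ => ‖G P (fun w => Real.exp (s w)) (Q.j x)‖) 2,
    integral_norm_G_exp hP (Q.j_fst_ne hx) (Q.j_snd_ne hx), WBn,
    Module.finrank_fintype_fun_eq_card, abs_of_pos (by positivity), smul_eq_mul,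
    ← inv_pow, ← Finset.card_univ, ← Finset.prod_const, ← Finset.prod_mul_distrib]
  refine Finset.prod_congr rfl fun w _ => ?_
  rw [Q.embedding_norm h2 w x, j_apply]
  simp only [norm_mul, mul_assoc]
  ring

end Quad

end Fermat.Agent.LT.Torus

end
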